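import Fermat.Agent.S41.CSP.Germ

/-!
# PROJECT R (S41), GATE 0, Lemma 3 (abstract core): `T_r² = (r + 1)²` on germs

`kap r` is the conjugation by `diag(1, r)`, `(a, b; c, d) ↦ (a, b / r; r c, d)`.  The germ Hecke
operator is `heckeGerm r ψ x = ∑_{j < r} ψ (kap (U j x U(-j))) + ψ (kap⁻¹ x)`.

`heckeGerm_sq`: there is a level `D` (depending only on `q`, `N`, `r`) such that for every `Ψ`
with `Ψ` parabolic on `Γ(N)` and `Ψ ∘ kap` parabolic on `Γ(N r)`: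
`heckeGerm r (heckeGerm r Ψ) x = (r + 1)² • Ψ x` for all `x ∈ Γ(D)`.
-/

set_option autoImplicit false

open Matrix.SpecialLinearGroup
open scoped MatrixGroups

noncomputable section

namespace Fermat.Agent.S41.CSP

/-- conjugation by `diag(1, t)`: `(a, b; c, d) ↦ (a, b / t; t c, d)` -/
def kap (t : ℚ) (ht : t ≠ 0) : SL(2, ℚ) →* SL(2, ℚ) where
  toFun g := mk2 (g.1 0 0) (g.1 0 1 / t) (t * g.1 1 0) (g.1 1 1) (by
    have := det_eq g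
    field_simp
    linarith)
  map_one' := by
    apply ext2 <;> simp [one_00, one_01, one_10, one_11]
  map_mul' g h := by
    apply ext2
    · simp only [mk2_00, mul_00, mk2_01, mk2_10]; field_simp
    · simp only [mk2_01, mul_01, mk2_00, mk2_11]; field_simp
    · simp only [mk2_10, mul_10, mk2_00, mk2_11]; ring
    · simp only [mk2_11, mul_11, mk2_10, mk2_01]; field_simp

@[simp] theorem kap_00 (t : ℚ) (ht : t ≠ 0) (g : SL(2, ℚ)) : (kap t ht g).1 0 0 = g.1 0 0 := rfl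
@[simp] theorem kap_01 (t : ℚ) (ht : t ≠ 0) (g : SL(2, ℚ)) : (kap t ht g).1 0 1 = g.1 0 1 / t := rfl
@[simp] theorem kap_10 (t : ℚ) (ht : t ≠ 0) (g : SL(2, ℚ)) : (kap t ht g).1 1 0 = t * g.1 1 0 := rfl
@[simp] theorem kap_11 (t : ℚ) (ht : t ≠ 0) (g : SL(2, ℚ)) : (kap t ht g).1 1 1 = g.1 1 1 := rfl

theorem kap_kap_inv (t : ℚ) (ht : t ≠ 0) (g : SL(2, ℚ)) :
    kap t ht (kap t⁻¹ (inv_ne_zero ht) g) = g := by
  apply ext2 <;> simp <;> field_simp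

theorem kap_inv_kap (t : ℚ) (ht : t ≠ 0) (g : SL(2, ℚ)) :
    kap t⁻¹ (inv_ne_zero ht) (kap t ht g) = g := by
  apply ext2 <;> simp <;> field_simp

/-- `kap ∘ kap` is the conjugation by `diag(t, t⁻¹)⁻¹` -/
theorem kap_kap (t : ℚ) (ht : t ≠ 0) (g : SL(2, ℚ)) :
    kap t ht (kap t ht g) = (hD t ht)⁻¹ * g * (hD t ht)⁻¹⁻¹ := by
  rw [inv_inv]
  apply ext2 <;>
  simp only [mul_00, mul_01, mul_10, mul_11, inv_00, inv_01, inv_10, inv_11, hD_00, hD_01, hD_10,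
    hD_11, kap_00, kap_01, kap_10, kap_11] <;>
  (try field_simp) <;> (try ring)

/-- `kap⁻¹ = kap ∘ (conjugation by diag(t, t⁻¹))` -/
theorem kap_inv_eq (t : ℚ) (ht : t ≠ 0) (g : SL(2, ℚ)) :
    kap t⁻¹ (inv_ne_zero ht) g = kap t ht (hD t ht * g * (hD t ht)⁻¹) := by
  apply ext2 <;>
  simp only [mul_00, mul_01, mul_10, mul_11, inv_00, inv_01, inv_10, inv_11, hD_00, hD_01, hD_10,
    hD_11, kap_00, kap_01, kap_10, kap_11] <;>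
  (try field_simp) <;> (try ring)

theorem trace_kap (t : ℚ) (ht : t ≠ 0) (g : SL(2, ℚ)) :
    (kap t ht g).1 0 0 + (kap t ht g).1 1 1 = g.1 0 0 + g.1 1 1 := rfl

/-- `kap r` and `kap r⁻¹` map `Γ(m r)` into `Γ(m)` -/
theorem kap_mem_Gam {q m r : ℕ} (hq : q ≠ 0) (hr : (r : ℚ) ≠ 0) {x : SL(2, ℚ)}
    (hx : x ∈ Gam q (m * r)) : kap (r : ℚ) hr x ∈ Gam q m := by
  obtain ⟨x00, x01, x10, x11⟩ := hx
  have hm : m ∣ m * r := Dvd.intro _ rfl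
  refine ⟨IA_mono hm x00, ?_, ?_, IA_mono hm x11⟩
  · obtain ⟨y, hy, hxy⟩ := exists_eq_natCast_mul hq x01
    rw [kap_01, hxy]
    have : ((m * r : ℕ) : ℚ) * y / (r : ℚ) = (m : ℚ) * y := by
      push_cast; field_simp
    rw [this]
    exact natCast_mul_mem_IA m hy
  · rw [kap_10]
    exact mul_mem_IA (natCast_mem_IA_one q r) (IA_mono hm x10)

theorem kap_inv_mem_Gam {q m r : ℕ} (hq : q ≠ 0) (hr : (r : ℚ) ≠ 0) {x : SL(2, ℚ)}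
    (hx : x ∈ Gam q (m * r)) : kap (r : ℚ)⁻¹ (inv_ne_zero hr) x ∈ Gam q m := by
  obtain ⟨x00, x01, x10, x11⟩ := hx
  have hm : m ∣ m * r := Dvd.intro _ rfl
  refine ⟨IA_mono hm x00, ?_, ?_, IA_mono hm x11⟩
  · rw [kap_01, div_inv_eq_mul, mul_comm]
    exact mul_mem_IA (natCast_mem_IA_one q r) (IA_mono hm x01)
  · obtain ⟨y, hy, hxy⟩ := exists_eq_natCast_mul hq x10
    rw [kap_10, hxy]
    have : (r : ℚ)⁻¹ * (((m * r : ℕ) : ℚ) * y) = (m : ℚ) * y := by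
      push_cast; field_simp
    rw [this]
    exact natCast_mul_mem_IA m hy

variable {F : Type*} [AddCommGroup F]

/-- the germ Hecke operator -/
def heckeGerm (r : ℕ) (hr : (r : ℚ) ≠ 0) (ψ : SL(2, ℚ) → F) (x : SL(2, ℚ)) : F :=
  ∑ j ∈ Finset.range r, ψ (kap (r : ℚ) hr (U (j : ℚ) * x * (U (j : ℚ))⁻¹)) +
    ψ (kap (r : ℚ)⁻¹ (inv_ne_zero hr) x)

theorem U_natCast_mem_Gam_one (q j : ℕ) : U (j : ℚ) ∈ Gam q 1 :=
  U_mem_Gam_one q (natCast_mem_IA_one q j)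

/-- invariance under all `U j`, `j : ℕ`, at one level -/
theorem exists_level_U_nat {q : ℕ} (hq : q.Prime) (m : ℕ) (hm : 0 < m) (hqm : Nat.Coprime q m) :
    ∃ m' : ℕ, 0 < m' ∧ Nat.Coprime q m' ∧ m ∣ m' ∧
      ∀ ψ : SL(2, ℚ) → F, IsParHomOn (Gam q m) ψ → ∀ (j : ℕ), ∀ x ∈ Gam q m',
        ψ (U (j : ℚ) * x * (U (j : ℚ))⁻¹) = ψ x := by
  obtain ⟨m', hm', hqm', hd, hc, hi⟩ := GInv.U (F := F) hq 1 m hm hqm
  refine ⟨m', hm', hqm', hd, fun ψ hψ j => ?_⟩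
  induction j with
  | zero =>
    intro x _
    have : U ((0 : ℕ) : ℚ) = 1 := by rw [Nat.cast_zero, U_zero]
    rw [this]; simp
  | succ j ih =>
    intro x hx
    have e : U ((j + 1 : ℕ) : ℚ) = U 1 * U (j : ℚ) := by
      rw [← U_add]; congr 1; push_cast; ring
    have hy : U (j : ℚ) * x * (U (j : ℚ))⁻¹ ∈ Gam q m' :=
      conj_mem_Gam (U_natCast_mem_Gam_one q j) hx
    have e2 : U ((j + 1 : ℕ) : ℚ) * x * (U ((j + 1 : ℕ) : ℚ))⁻¹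
        = U 1 * (U (j : ℚ) * x * (U (j : ℚ))⁻¹) * (U 1)⁻¹ := by
      rw [e]; group
    rw [e2, hi ψ hψ _ hy, ih x hx]

/-- **first pass**: `heckeGerm r Ψ = (r + 1) Ψ ∘ kap` on deep elements -/
theorem exists_level_heckeGerm {q N r : ℕ} (hq : q.Prime) (hN : 0 < N) (hqN : Nat.Coprime q N)
    (hr0 : 0 < r) (hqr : Nat.Coprime q r) (hr : (r : ℚ) ≠ 0) :
    ∃ D : ℕ, 0 < D ∧ Nat.Coprime q D ∧ N * r ∣ D ∧
      ∀ Ψ : SL(2, ℚ) → F, IsParHomOn (Gam q (N * r)) (fun x => Ψ (kap (r : ℚ) hr x)) →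
        ∀ x ∈ Gam q D, heckeGerm r hr Ψ x = (r + 1) • Ψ (kap (r : ℚ) hr x) := by
  have hNr : 0 < N * r := Nat.mul_pos hN hr0
  have hqNr : Nat.Coprime q (N * r) := Nat.Coprime.mul_right hqN hqr
  obtain ⟨m₁, hm₁, hqm₁, hd₁, hU⟩ := exists_level_U_nat (F := F) hq (N * r) hNr hqNr
  obtain ⟨m₂, hm₂, hqm₂, hd₂, hc₂, hi₂⟩ := GInv.hD (F := F) hq (r : ℚ) hr (N * r) hNr hqNr
  refine ⟨m₁ * m₂, Nat.mul_pos hm₁ hm₂, Nat.Coprime.mul_right hqm₁ hqm₂,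
    hd₁.trans (Dvd.intro _ rfl), fun Ψ hΨκ x hx => ?_⟩
  have hx₁ : x ∈ Gam q m₁ := Gam_mono (Dvd.intro _ rfl) hx
  have hx₂ : x ∈ Gam q m₂ := Gam_mono (Dvd.intro_left _ rfl) hx
  unfold heckeGerm
  have h1 : ∀ j ∈ Finset.range r, Ψ (kap (r : ℚ) hr (U (j : ℚ) * x * (U (j : ℚ))⁻¹))
      = Ψ (kap (r : ℚ) hr x) := fun j _ => hU _ hΨκ j x hx₁
  rw [Finset.sum_congr rfl h1, Finset.sum_const, Finset.card_range, kap_inv_eq (r : ℚ) hr]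
  have h2 : Ψ (kap (r : ℚ) hr (hD (r : ℚ) hr * x * (hD (r : ℚ) hr)⁻¹)) = Ψ (kap (r : ℚ) hr x) :=
    hi₂ _ hΨκ x hx₂
  rw [h2, add_smul, one_smul]

/-- **Lemma 3 (abstract core)**: `heckeGerm r (heckeGerm r Ψ) = (r + 1)² Ψ` on deep elements -/
theorem heckeGerm_sq {q N r : ℕ} (hq : q.Prime) (hN : 0 < N) (hqN : Nat.Coprime q N)
    (hr0 : 0 < r) (hqr : Nat.Coprime q r) (hr : (r : ℚ) ≠ 0) :
    ∃ D : ℕ, 0 < D ∧ Nat.Coprime q D ∧ N * r ∣ D ∧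
      ∀ Ψ : SL(2, ℚ) → F, IsParHomOn (Gam q N) Ψ →
        IsParHomOn (Gam q (N * r)) (fun x => Ψ (kap (r : ℚ) hr x)) →
        ∀ x ∈ Gam q D, heckeGerm r hr (heckeGerm r hr Ψ) x = ((r + 1) * (r + 1)) • Ψ x := by
  obtain ⟨D₁, hD₁, hqD₁, hdD₁, hfirst⟩ :=
    exists_level_heckeGerm (F := F) hq hN hqN hr0 hqr hr
  obtain ⟨m₁, hm₁, hqm₁, hd₁, hU⟩ := exists_level_U_nat (F := F) hq N hN hqN
  obtain ⟨m₂, hm₂, hqm₂, hd₂, hc₂, hi₂⟩ := ((GInv.hD (F := F) hq (r : ℚ) hr).inv hq) N hN hqN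
  -- the level
  set D : ℕ := D₁ * m₁ * m₂ * r with hDdef
  have hDpos : 0 < D := by positivity
  have hqD : Nat.Coprime q D :=
    Nat.Coprime.mul_right (Nat.Coprime.mul_right (Nat.Coprime.mul_right hqD₁ hqm₁) hqm₂) hqr
  have hD₁D : D₁ * r ∣ D := ⟨m₁ * m₂, by rw [hDdef]; ring⟩
  have hNrD : N * r ∣ D := hdD₁.trans ((Dvd.intro _ rfl).trans hD₁D)
  refine ⟨D, hDpos, hqD, hNrD, fun Ψ hΨ hΨκ x hx => ?_⟩
  have hx₁ : x ∈ Gam q m₁ := Gam_mono ⟨D₁ * m₂ * r, by rw [hDdef]; ring⟩ hx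
  have hx₂ : x ∈ Gam q m₂ := Gam_mono ⟨D₁ * m₁ * r, by rw [hDdef]; ring⟩ hx
  have hxD₁r : x ∈ Gam q (D₁ * r) := Gam_mono hD₁D hx
  -- the arguments of the outer operator are deep
  have harg : ∀ j : ℕ, kap (r : ℚ) hr (U (j : ℚ) * x * (U (j : ℚ))⁻¹) ∈ Gam q D₁ := fun j =>
    kap_mem_Gam hq.ne_zero hr (conj_mem_Gam (U_natCast_mem_Gam_one q j) hxD₁r)
  have harg' : kap (r : ℚ)⁻¹ (inv_ne_zero hr) x ∈ Gam q D₁ :=
    kap_inv_mem_Gam hq.ne_zero hr hxD₁r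
  have hval : ∀ j ∈ Finset.range r,
      heckeGerm r hr Ψ (kap (r : ℚ) hr (U (j : ℚ) * x * (U (j : ℚ))⁻¹)) = (r + 1) • Ψ x := by
    intro j _
    rw [hfirst Ψ hΨκ _ (harg j), kap_kap]
    have hy₂ : U (j : ℚ) * x * (U (j : ℚ))⁻¹ ∈ Gam q m₂ :=
      conj_mem_Gam (U_natCast_mem_Gam_one q j) hx₂
    rw [hi₂ Ψ hΨ _ hy₂, hU Ψ hΨ j x hx₁]
  have hval' : heckeGerm r hr Ψ (kap (r : ℚ)⁻¹ (inv_ne_zero hr) x) = (r + 1) • Ψ x := by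
    rw [hfirst Ψ hΨκ _ harg', kap_kap_inv]
  show ∑ j ∈ Finset.range r, heckeGerm r hr Ψ (kap (r : ℚ) hr (U (j : ℚ) * x * (U (j : ℚ))⁻¹)) +
    heckeGerm r hr Ψ (kap (r : ℚ)⁻¹ (inv_ne_zero hr) x) = ((r + 1) * (r + 1)) • Ψ x
  rw [Finset.sum_congr rfl hval, hval', Finset.sum_const, Finset.card_range, ← succ_nsmul, mul_smul]

end Fermat.Agent.S41.CSP
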