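import Mathlib
import Fermat.Agent.S30.Hecke.Gamma0Cosets
import Fermat.Agent.S41.Amalgam.Basic
import Fermat.Agent.S41.CSP.HeckeSq

/-!
# PROJECT R (S41), C4 (iii): the `S30` coset bookkeeping of `T_r` on `Γ₀(N) ∩ Γ(r)`

For a prime `r ∤ N` and `g ∈ Γ₀(N) ∩ Γ(r)`, the coset data `cosetT hr hrN` of `S30` satisfies

* `perm g x = x` for every representative `x`;
* `coc g (some j) = kap r (U j * g * (U j)⁻¹)` and `coc g none = kap r⁻¹ g` (as rational matrices),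
  where `kap t` is the conjugation by `diag(1, t)` of `CSP/HeckeSq`.

Consequently, for a homomorphism `χ` on `Γ₀(N)` of the form `χ g = Ψ (castQ g)`:
`tauAll N r χ g = heckeGerm r Ψ (castQ g)` for `g ∈ Γ(r)`, and
`tauAll N r (tauAll N r χ) g = heckeGerm r (heckeGerm r Ψ) (castQ g)` for `g ∈ Γ(r²)`.
-/

set_option autoImplicit false
set_option linter.unusedSectionVars false
set_option linter.unusedSimpArgs false

open CongruenceSubgroup Matrix.SpecialLinearGroup ModularForm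
open scoped MatrixGroups

noncomputable section

namespace Fermat.Agent.S41.CSP.CosetBridge

open Fermat.Agent.S30.Hecke.DoubleCoset Fermat.Agent.S30.Hecke.Gamma0Cosets
open Fermat.Agent.S41.Amalgam (castQ castQ_apply)
open Fermat.Agent.S41.CSP

variable {N r : ℕ}

/-! ### the entries of an element of `Γ(r)` -/

theorem intCast_eq_one_iff (n : ℕ) (a : ℤ) : ((a : ZMod n) = 1) ↔ (n : ℤ) ∣ a - 1 := by
  have h := ZMod.intCast_eq_intCast_iff_dvd_sub 1 a n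
  rw [Int.cast_one] at h
  rw [eq_comm]
  exact h

theorem Gamma_entries {n : ℕ} {γ : SL(2, ℤ)} (hγ : γ ∈ Gamma n) :
    (n : ℤ) ∣ γ.1 0 0 - 1 ∧ (n : ℤ) ∣ γ.1 0 1 ∧ (n : ℤ) ∣ γ.1 1 0 ∧ (n : ℤ) ∣ γ.1 1 1 - 1 := by
  rw [Gamma_mem] at hγ
  obtain ⟨h1, h2, h3, h4⟩ := hγ
  exact ⟨(intCast_eq_one_iff n _).mp h1, (ZMod.intCast_zmod_eq_zero_iff_dvd _ _).mp h2,
    (ZMod.intCast_zmod_eq_zero_iff_dvd _ _).mp h3, (intCast_eq_one_iff n _).mp h4⟩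

theorem mem_Gamma_of_entries {n : ℕ} {γ : SL(2, ℤ)}
    (h1 : (n : ℤ) ∣ γ.1 0 0 - 1) (h2 : (n : ℤ) ∣ γ.1 0 1) (h3 : (n : ℤ) ∣ γ.1 1 0)
    (h4 : (n : ℤ) ∣ γ.1 1 1 - 1) : γ ∈ Gamma n := by
  rw [Gamma_mem]
  exact ⟨(intCast_eq_one_iff n _).mpr h1, (ZMod.intCast_zmod_eq_zero_iff_dvd _ _).mpr h2,
    (ZMod.intCast_zmod_eq_zero_iff_dvd _ _).mpr h3, (intCast_eq_one_iff n _).mpr h4⟩

/-! ### the explicit cocycles -/

/-- the data of `g ∈ Γ₀(N) ∩ Γ(r)` at the representative `some j`: the quotient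
`(b + j (d - a) - j² c) / r` -/
theorem exists_quot_some {g : Gamma0 N} (hg : (g : SL(2, ℤ)) ∈ Gamma r) (j : ℤ) :
    ∃ b' : ℤ, (r : ℤ) * b' = g.1.1 0 1 + j * (g.1.1 1 1 - g.1.1 0 0) - j * j * g.1.1 1 0 := by
  obtain ⟨⟨u, hu⟩, ⟨v, hv⟩, ⟨w, hw⟩, ⟨z, hz⟩⟩ := Gamma_entries hg
  refine ⟨v + j * (z - u) - j * j * w, ?_⟩
  have e : g.1.1 1 1 - g.1.1 0 0 = (g.1.1 1 1 - 1) - (g.1.1 0 0 - 1) := by ring
  rw [e, hu, hv, hw, hz]
  ring

/-- the cocycle at `some j`, as an element of `Γ₀(N)` with prescribed entries -/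
theorem exists_coc_some (hr : r.Prime) (hrN : ¬ r ∣ N) (g : Gamma0 N)
    (hg : (g : SL(2, ℤ)) ∈ Gamma r) (j : Fin r) :
    ∃ g' : Gamma0 N, (cosetT hr hrN).perm g (some j) = some j ∧ (cosetT hr hrN).coc g (some j) = g' ∧
      g'.1.1 0 0 = g.1.1 0 0 + ((j : ℕ) : ℤ) * g.1.1 1 0 ∧
      (r : ℤ) * g'.1.1 0 1 = g.1.1 0 1 + ((j : ℕ) : ℤ) * (g.1.1 1 1 - g.1.1 0 0)
        - ((j : ℕ) : ℤ) * ((j : ℕ) : ℤ) * g.1.1 1 0 ∧
      g'.1.1 1 0 = (r : ℤ) * g.1.1 1 0 ∧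
      g'.1.1 1 1 = g.1.1 1 1 - ((j : ℕ) : ℤ) * g.1.1 1 0 := by
  obtain ⟨b', hb'⟩ := exists_quot_some hg ((j : ℕ) : ℤ)
  have hdet := det_entries N g
  have hc := dvd_entry N g
  set a := (g : SL(2, ℤ)) 0 0 with ha
  set b := (g : SL(2, ℤ)) 0 1 with hb
  set c := (g : SL(2, ℤ)) 1 0 with hc'
  set d := (g : SL(2, ℤ)) 1 1 with hd
  have hb'' : (r : ℤ) * b' = b + ((j : ℕ) : ℤ) * (d - a) - ((j : ℕ) : ℤ) * ((j : ℕ) : ℤ) * c := hb'
  have hdet' : (a + ((j : ℕ) : ℤ) * c) * (d - ((j : ℕ) : ℤ) * c) - b' * ((r : ℤ) * c) = 1 := by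
    rw [← hdet]
    linear_combination (-c) * hb''
  refine ⟨mkGamma0 N (a + ((j : ℕ) : ℤ) * c) b' ((r : ℤ) * c) (d - ((j : ℕ) : ℤ) * c) hdet'
    (Dvd.dvd.mul_left hc _), ?_⟩
  have hrelZ : repZ r (some j) * ((g : SL(2, ℤ)) : Matrix (Fin 2) (Fin 2) ℤ) =
      ((mkGamma0 N (a + ((j : ℕ) : ℤ) * c) b' ((r : ℤ) * c) (d - ((j : ℕ) : ℤ) * c) hdet'
        (Dvd.dvd.mul_left hc _) : Gamma0 N) : SL(2, ℤ)) * repZ r (some j) := by
    rw [coe_mkGamma0, coe_eq_of N g]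
    simp only [repZ, Matrix.mul_fin_two]
    exact of_eq (by ring) (by linear_combination (-1 : ℤ) * hb'') (by ring) (by ring)
  have hrel := rel_of_relZ hr.ne_zero hrelZ
  obtain ⟨h1, h2⟩ := (cosetT hr hrN).eq_of_rel (iota_injective N) (cosetT_sep hr hrN)
    (x := some j) (x' := some j) (by rw [cosetT_rep]; exact hrel)
  exact ⟨h1, h2, rfl, hb'', rfl, rfl⟩

/-- the cocycle at `none`, as an element of `Γ₀(N)` with prescribed entries -/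
theorem exists_coc_none (hr : r.Prime) (hrN : ¬ r ∣ N) (g : Gamma0 N)
    (hg : (g : SL(2, ℤ)) ∈ Gamma r) :
    ∃ g' : Gamma0 N, (cosetT hr hrN).perm g none = none ∧ (cosetT hr hrN).coc g none = g' ∧
      g'.1.1 0 0 = g.1.1 0 0 ∧ g'.1.1 0 1 = (r : ℤ) * g.1.1 0 1 ∧
      (r : ℤ) * g'.1.1 1 0 = g.1.1 1 0 ∧ g'.1.1 1 1 = g.1.1 1 1 := by
  obtain ⟨-, -, ⟨c', hc'⟩, -⟩ := Gamma_entries hg
  have hdet := det_entries N g
  have hc := dvd_entry N g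
  set a := (g : SL(2, ℤ)) 0 0 with ha
  set b := (g : SL(2, ℤ)) 0 1 with hb
  set c := (g : SL(2, ℤ)) 1 0 with hcdef
  set d := (g : SL(2, ℤ)) 1 1 with hd
  have hc'' : c = (r : ℤ) * c' := hc'
  have hNc' : (N : ℤ) ∣ c' := dvd_of_dvd_mul_prime hr hrN (hc'' ▸ hc)
  have hdet' : a * d - ((r : ℤ) * b) * c' = 1 := by
    rw [← hdet, hc'']
    ring
  refine ⟨mkGamma0 N a ((r : ℤ) * b) c' d hdet' hNc', ?_⟩
  have hrelZ : repZ r none * ((g : SL(2, ℤ)) : Matrix (Fin 2) (Fin 2) ℤ) =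
      ((mkGamma0 N a ((r : ℤ) * b) c' d hdet' hNc' : Gamma0 N) : SL(2, ℤ)) * repZ r none := by
    rw [coe_mkGamma0, coe_eq_of N g]
    simp only [repZ, Matrix.mul_fin_two]
    exact of_eq (by ring) (by ring) (by linear_combination hc'') (by ring)
  have hrel := rel_of_relZ hr.ne_zero hrelZ
  obtain ⟨h1, h2⟩ := (cosetT hr hrN).eq_of_rel (iota_injective N) (cosetT_sep hr hrN)
    (x := none) (x' := none) (by rw [cosetT_rep]; exact hrel)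
  exact ⟨h1, h2, rfl, rfl, hc''.symm, rfl⟩

/-- **the permutation is trivial on `Γ₀(N) ∩ Γ(r)`** -/
theorem perm_eq (hr : r.Prime) (hrN : ¬ r ∣ N) (g : Gamma0 N) (hg : (g : SL(2, ℤ)) ∈ Gamma r)
    (x : Option (Fin r)) : (cosetT hr hrN).perm g x = x := by
  rcases x with _ | j
  · exact (exists_coc_none hr hrN g hg).choose_spec.1
  · exact (exists_coc_some hr hrN g hg j).choose_spec.1

/-- **the cocycle at `some j`**: `kap r (U j * g * (U j)⁻¹)` -/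
theorem castQ_coc_some (hr : r.Prime) (hrN : ¬ r ∣ N) (g : Gamma0 N)
    (hg : (g : SL(2, ℤ)) ∈ Gamma r) (j : Fin r) :
    castQ ((cosetT hr hrN).coc g (some j)).1 =
      kap (r : ℚ) (Nat.cast_ne_zero.mpr hr.ne_zero)
        (U (((j : ℕ) : ℚ)) * castQ g.1 * (U (((j : ℕ) : ℚ)))⁻¹) := by
  obtain ⟨g', -, h2, e00, e01, e10, e11⟩ := exists_coc_some hr hrN g hg j
  have hr0 : (r : ℚ) ≠ 0 := Nat.cast_ne_zero.mpr hr.ne_zero
  rw [h2]
  have e01' : (r : ℚ) * (g'.1.1 0 1 : ℚ) = (g.1.1 0 1 : ℚ) + ((j : ℕ) : ℚ) *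
      ((g.1.1 1 1 : ℚ) - (g.1.1 0 0 : ℚ)) - ((j : ℕ) : ℚ) * ((j : ℕ) : ℚ) * (g.1.1 1 0 : ℚ) := by
    exact_mod_cast e01
  apply ext2
  · rw [castQ_apply, e00, kap_00, mul_00, mul_00, mul_01, inv_00, inv_10]
    simp only [U_00, U_01, U_10, U_11, castQ_apply]
    push_cast
    ring
  · rw [castQ_apply, kap_01, mul_01, mul_00, mul_01, inv_01, inv_11]
    simp only [U_00, U_01, U_10, U_11, castQ_apply]
    rw [eq_div_iff hr0, mul_comm, e01']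
    ring
  · rw [castQ_apply, e10, kap_10, mul_10, mul_10, mul_11, inv_00, inv_10]
    simp only [U_00, U_01, U_10, U_11, castQ_apply]
    push_cast
    ring
  · rw [castQ_apply, e11, kap_11, mul_11, mul_10, mul_11, inv_01, inv_11]
    simp only [U_00, U_01, U_10, U_11, castQ_apply]
    push_cast
    ring

/-- **the cocycle at `none`**: `kap r⁻¹ g` -/
theorem castQ_coc_none (hr : r.Prime) (hrN : ¬ r ∣ N) (g : Gamma0 N)
    (hg : (g : SL(2, ℤ)) ∈ Gamma r) :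
    castQ ((cosetT hr hrN).coc g none).1 =
      kap (r : ℚ)⁻¹ (inv_ne_zero (Nat.cast_ne_zero.mpr hr.ne_zero)) (castQ g.1) := by
  obtain ⟨g', -, h2, e00, e01, e10, e11⟩ := exists_coc_none hr hrN g hg
  have hr0 : (r : ℚ) ≠ 0 := Nat.cast_ne_zero.mpr hr.ne_zero
  rw [h2]
  have e10' : (r : ℚ) * (g'.1.1 1 0 : ℚ) = (g.1.1 1 0 : ℚ) := by exact_mod_cast e10
  apply ext2
  · rw [castQ_apply, e00, kap_00, castQ_apply]
  · rw [castQ_apply, e01, kap_01, castQ_apply, div_inv_eq_mul]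
    push_cast
    ring
  · rw [castQ_apply, kap_10, castQ_apply, ← e10']
    field_simp
  · rw [castQ_apply, e11, kap_11, castQ_apply]

/-- the cocycles of a deep element are again in `Γ(r)` -/
theorem coc_mem_Gamma (hr : r.Prime) (hrN : ¬ r ∣ N) (g : Gamma0 N)
    (hg : (g : SL(2, ℤ)) ∈ Gamma (r * r)) (x : Option (Fin r)) :
    (((cosetT hr hrN).coc g x : Gamma0 N) : SL(2, ℤ)) ∈ Gamma r := by
  have hgr : (g : SL(2, ℤ)) ∈ Gamma r := by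
    obtain ⟨h1, h2, h3, h4⟩ := Gamma_entries hg
    have hd : (r : ℤ) ∣ ((r * r : ℕ) : ℤ) := ⟨r, by push_cast; ring⟩
    exact mem_Gamma_of_entries (hd.trans h1) (hd.trans h2) (hd.trans h3) (hd.trans h4)
  obtain ⟨⟨u, hu⟩, ⟨v, hv⟩, ⟨w, hw⟩, ⟨z, hz⟩⟩ := Gamma_entries hg
  have hr0 : (r : ℤ) ≠ 0 := Int.natCast_ne_zero.mpr hr.ne_zero
  push_cast at hu hv hw hz
  rcases x with _ | j
  · obtain ⟨g', -, h2, e00, e01, e10, e11⟩ := exists_coc_none hr hrN g hgr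
    rw [h2]
    refine mem_Gamma_of_entries ?_ ?_ ?_ ?_
    · rw [e00, hu]; exact ⟨r * u, by ring⟩
    · rw [e01]; exact ⟨g.1.1 0 1, rfl⟩
    · have : (r : ℤ) * g'.1.1 1 0 = (r : ℤ) * ((r : ℤ) * w) := by rw [e10, hw]; ring
      rw [mul_left_cancel₀ hr0 this]
      exact ⟨w, rfl⟩
    · rw [e11, hz]; exact ⟨r * z, by ring⟩
  · obtain ⟨g', -, h2, e00, e01, e10, e11⟩ := exists_coc_some hr hrN g hgr j
    rw [h2]
    refine mem_Gamma_of_entries ?_ ?_ ?_ ?_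
    · rw [e00]
      have : g.1.1 0 0 + ((j : ℕ) : ℤ) * g.1.1 1 0 - 1
          = (g.1.1 0 0 - 1) + ((j : ℕ) : ℤ) * g.1.1 1 0 := by ring
      rw [this, hu, hw]
      exact ⟨r * u + ((j : ℕ) : ℤ) * (r * w), by ring⟩
    · have e : g.1.1 1 1 - g.1.1 0 0 = (g.1.1 1 1 - 1) - (g.1.1 0 0 - 1) := by ring
      have : (r : ℤ) * g'.1.1 0 1 = (r : ℤ) * ((r : ℤ) * (v + ((j : ℕ) : ℤ) * (z - u)
          - ((j : ℕ) : ℤ) * ((j : ℕ) : ℤ) * w)) := by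
        rw [e01, e, hu, hv, hw, hz]; ring
      rw [mul_left_cancel₀ hr0 this]
      exact ⟨_, rfl⟩
    · rw [e10]; exact ⟨g.1.1 1 0, rfl⟩
    · rw [e11]
      have : g.1.1 1 1 - ((j : ℕ) : ℤ) * g.1.1 1 0 - 1
          = (g.1.1 1 1 - 1) - ((j : ℕ) : ℤ) * g.1.1 1 0 := by ring
      rw [this, hz, hw]
      exact ⟨r * z - ((j : ℕ) : ℤ) * (r * w), by ring⟩

/-! ### the Hecke operator of `S30` and the germ Hecke operator -/

variable {F : Type*} [AddCommGroup F]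

/-- the shape of the sum over the representatives -/
theorem sum_option_fin (r : ℕ) (f : Option (Fin r) → F) (h : ℕ → F)
    (hf : ∀ j : Fin r, f (some j) = h (j : ℕ)) :
    ∑ x, f x = ∑ j ∈ Finset.range r, h j + f none := by
  rw [Fintype.sum_option, add_comm, Finset.sum_congr rfl fun j _ => hf j,
    Fin.sum_univ_eq_sum_range]

/-- `τ_r` for `r ∤ N`, unfolded -/
theorem tauAll_apply (hr : r.Prime) (hrN : ¬ r ∣ N) (φ : Additive (Gamma0 N) →+ F)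
    (g : Gamma0 N) :
    tauAll N r hr φ (Additive.ofMul g) =
      ∑ x, φ (Additive.ofMul ((cosetT hr hrN).coc g x)) := by
  unfold tauAll
  rw [dif_neg hrN]
  rfl

/-- **first pass**: on `Γ₀(N) ∩ Γ(r)`, `τ_r χ` is the germ Hecke operator -/
theorem tauAll_apply_eq_heckeGerm (hr : r.Prime) (hrN : ¬ r ∣ N)
    (χ : Additive (Gamma0 N) →+ F) (Ψ : SL(2, ℚ) → F)
    (h : ∀ g : Gamma0 N, χ (Additive.ofMul g) = Ψ (castQ g.1)) (g : Gamma0 N)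
    (hg : (g : SL(2, ℤ)) ∈ Gamma r) :
    tauAll N r hr χ (Additive.ofMul g) =
      heckeGerm r (Nat.cast_ne_zero.mpr hr.ne_zero) Ψ (castQ g.1) := by
  rw [tauAll_apply hr hrN χ g, heckeGerm]
  rw [sum_option_fin r (fun x => χ (Additive.ofMul ((cosetT hr hrN).coc g x)))
    (fun j => Ψ (kap (r : ℚ) (Nat.cast_ne_zero.mpr hr.ne_zero)
      (U ((j : ℕ) : ℚ) * castQ g.1 * (U ((j : ℕ) : ℚ))⁻¹)))
    (fun j => by rw [h, castQ_coc_some hr hrN g hg j])]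
  rw [h, castQ_coc_none hr hrN g hg]

/-- **second pass**: on `Γ₀(N) ∩ Γ(r²)`, `τ_r (τ_r χ)` is the square of the germ Hecke operator -/
theorem tauAll_tauAll_apply_eq (hr : r.Prime) (hrN : ¬ r ∣ N)
    (χ : Additive (Gamma0 N) →+ F) (Ψ : SL(2, ℚ) → F)
    (h : ∀ g : Gamma0 N, χ (Additive.ofMul g) = Ψ (castQ g.1)) (g : Gamma0 N)
    (hg : (g : SL(2, ℤ)) ∈ Gamma (r * r)) :
    tauAll N r hr (tauAll N r hr χ) (Additive.ofMul g) =
      heckeGerm r (Nat.cast_ne_zero.mpr hr.ne_zero)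
        (heckeGerm r (Nat.cast_ne_zero.mpr hr.ne_zero) Ψ) (castQ g.1) := by
  have hgr : (g : SL(2, ℤ)) ∈ Gamma r := by
    obtain ⟨h1, h2, h3, h4⟩ := Gamma_entries hg
    have hd : (r : ℤ) ∣ ((r * r : ℕ) : ℤ) := ⟨r, by push_cast; ring⟩
    exact mem_Gamma_of_entries (hd.trans h1) (hd.trans h2) (hd.trans h3) (hd.trans h4)
  have hstep : ∀ x, tauAll N r hr χ (Additive.ofMul ((cosetT hr hrN).coc g x)) =
      heckeGerm r (Nat.cast_ne_zero.mpr hr.ne_zero) Ψ (castQ ((cosetT hr hrN).coc g x).1) :=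
    fun x => tauAll_apply_eq_heckeGerm hr hrN χ Ψ h _ (coc_mem_Gamma hr hrN g hg x)
  rw [tauAll_apply hr hrN (tauAll N r hr χ) g, heckeGerm]
  rw [sum_option_fin r (fun x => tauAll N r hr χ (Additive.ofMul ((cosetT hr hrN).coc g x)))
    (fun j => heckeGerm r (Nat.cast_ne_zero.mpr hr.ne_zero) Ψ
      (kap (r : ℚ) (Nat.cast_ne_zero.mpr hr.ne_zero)
        (U ((j : ℕ) : ℚ) * castQ g.1 * (U ((j : ℕ) : ℚ))⁻¹)))
    (fun j => by rw [hstep, castQ_coc_some hr hrN g hgr j])]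
  rw [hstep, castQ_coc_none hr hrN g hgr]

end Fermat.Agent.S41.CSP.CosetBridge
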