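import Fermat.Agent.S41.CSP.Bridge
import Fermat.Agent.S41.CSP.CosetBridge

/-!
# PROJECT R (S41), slice C4 (assembly): the weak Ihara lemma

For a prime `q ∤ N`, an abelian group `F` without `q`-torsion and a prime `r ∤ N q` there is a level
`D` (depending only on `N`, `q`, `r`) such that for every additive character `Φ` of `Γ₀(N)[1/q]`
whose two restrictions `χ` to `Γ₀(N)` are parabolic, `τ_r (τ_r χ) = (r + 1)² χ` on `Γ₀(N) ∩ Γ(D)`:
`weakIharaAt`.  This is `Ihara.Assembly.WeakIharaAt`, the input of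
`Ihara.Assembly.iharaMod_of_weakIhara`.

Proof: `Ψ := Bridge.ext Φ` is a germ (`Bridge.isParHomOn_ext`, `Bridge.isParHomOn_ext_kap`), on
`Γ₀(N) ∩ Γ(r²)` the operator `τ_r τ_r` is `heckeGerm r ∘ heckeGerm r`
(`CosetBridge.tauAll_tauAll_apply_eq`), and `CSP.heckeGerm_sq`.
-/

set_option autoImplicit false

open CongruenceSubgroup Matrix.SpecialLinearGroup ModularCurve.Period
open scoped MatrixGroups

noncomputable section

namespace Fermat.Agent.S41.CSP.WeakIhara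

open Fermat.Agent.S30.Hecke.DoubleCoset Fermat.Agent.S30.Hecke.Gamma0Cosets
open Fermat.Agent.S41.Amalgam (GammaQ castQ incA incB)
open Fermat.Agent.S41.CSP Fermat.Agent.S41.CSP.Bridge Fermat.Agent.S41.CSP.CosetBridge
open Fermat.Agent.S41.Ihara.Assembly Fermat.Agent.S41.Ihara.Twist

theorem Gamma_le_of_dvd {m n : ℕ} (h : m ∣ n) : Gamma n ≤ Gamma m := by
  intro γ hγ
  obtain ⟨h1, h2, h3, h4⟩ := Gamma_entries hγ
  have hd : (m : ℤ) ∣ (n : ℤ) := Int.natCast_dvd_natCast.mpr h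
  exact mem_Gamma_of_entries (hd.trans h1) (hd.trans h2) (hd.trans h3) (hd.trans h4)

variable {N q : ℕ} {F : Type*} [AddCommGroup F]

/-- **the `incA` half of the weak Ihara lemma** -/
theorem weakIharaHalf [NeZero q] (hq : q.Prime) (hqN : ¬ q ∣ N) (hN : 0 < N)
    (hF : ∀ f : F, q • f = 0 → f = 0) {r : ℕ} (hr : r.Prime) (hrNq : ¬ r ∣ N * q) :
    ∃ D : ℕ, 0 < D ∧ WeakIharaHalf N q F r hr D := by
  have hrN : ¬ r ∣ N := fun h => hrNq (h.trans (Dvd.intro _ rfl))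
  have hrq : r ≠ q := fun h => hrNq (h ▸ Dvd.intro_left _ rfl)
  have hqN' : Nat.Coprime q N := (Nat.Prime.coprime_iff_not_dvd hq).mpr hqN
  have hqr : Nat.Coprime q r := (Nat.coprime_primes hq hr).mpr (Ne.symm hrq)
  obtain ⟨D, hD0, _, hNrD, H⟩ :=
    heckeGerm_sq (F := F) hq hN hqN' hr.pos hqr (Nat.cast_ne_zero.mpr hr.ne_zero)
  refine ⟨D * r, Nat.mul_pos hD0 hr.pos, fun Φ hA g hg => ?_⟩
  have hrD : r ∣ D := (Dvd.intro_left _ rfl).trans hNrD
  have hgrr : (g : SL(2, ℤ)) ∈ Gamma (r * r) := Gamma_le_of_dvd (Nat.mul_dvd_mul_right hrD r) hg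
  have hgD : (g : SL(2, ℤ)) ∈ Gamma D := Gamma_le_of_dvd (Dvd.intro _ rfl) hg
  rw [tauAll_tauAll_apply_eq hr hrN (Φ.comp (MonoidHom.toAdditive (incA N q))) (ext Φ)
    (fun g => (ext_castQ Φ g).symm) g hgrr]
  rw [H (ext Φ) (isParHomOn_ext hF Φ hA (dvd_refl N))
    (isParHomOn_ext_kap hq.ne_zero hF Φ hA (Nat.cast_ne_zero.mpr hr.ne_zero)) (castQ g.1)
    (castQ_mem_Gam q hgD)]
  rw [ext_castQ]
  have e : (((r + 1) * (r + 1) : ℕ) : ℤ) = ((r : ℤ) + 1) ^ 2 := by push_cast; ring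
  rw [← e, natCast_zsmul]
  rfl

/-- **the weak Ihara lemma** (slice C4): the literal hypothesis of
`Ihara.Assembly.iharaMod_of_weakIhara` -/
theorem weakIharaAt [NeZero q] (hq : q.Prime) (hqN : ¬ q ∣ N) (hN : 0 < N)
    (hF : ∀ f : F, q • f = 0 → f = 0) {r : ℕ} (hr : r.Prime) (hrNq : ¬ r ∣ N * q) :
    ∃ D : ℕ, 0 < D ∧ WeakIharaAt N q F r hr D := by
  obtain ⟨D, hD, h⟩ := weakIharaHalf (F := F) hq hqN hN hF hr hrNq
  exact ⟨D, hD, weakIharaAt_of_half h⟩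

/-- `ZMod p` has no `q`-torsion for primes `p ≠ q` -/
theorem zmod_torsionFree {p q : ℕ} (hp : p.Prime) (hq : q.Prime) (hqp : q ≠ p) (f : ZMod p)
    (h : q • f = 0) : f = 0 := by
  have : Fact p.Prime := ⟨hp⟩
  rw [nsmul_eq_mul] at h
  rcases mul_eq_zero.mp h with h0 | h0
  · exfalso
    have hdvd : p ∣ q := (ZMod.natCast_eq_zero_iff q p).mp h0
    exact hqp ((Nat.prime_dvd_prime_iff_eq hp hq).mp hdvd).symm
  · exact h0

/-- **HOLE A of `S41.lean`**: the weak Ihara lemma with coefficients `ZMod p`, `p ≠ q` -/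
theorem weakIharaAt_zmod [NeZero q] {p : ℕ} (hp : p.Prime) (hq : q.Prime) (hqN : ¬ q ∣ N)
    (hN : 0 < N) (hqp : q ≠ p) :
    ∀ (r : ℕ) (hr : r.Prime), ¬ r ∣ N * q → ∃ D : ℕ, 0 < D ∧ WeakIharaAt N q (ZMod p) r hr D :=
  fun _ hr hrNq => weakIharaAt hq hqN hN (zmod_torsionFree hp hq hqp) hr hrNq

end Fermat.Agent.S41.CSP.WeakIhara
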