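import Mathlib

/-!
# PROJECT R (S41), GATE 0: the arithmetic input of the centrality lemma

`n = q ^ (2 s) - 1`, `l` a prime with `l ≡ -1 mod 2 n`, `l > n + 2`.  Then for every `j₀` there is
a unit `v = q ^ m`, `2 s ∣ m`, with `v ^ 2 - 1 = n (n + 2) l σ` and `σ ≡ q ^ j₀ mod n`.
-/

set_option autoImplicit false

namespace Fermat.Agent.S41.CSP

open Finset

/-- the arithmetic core of the centrality lemma -/
theorem exists_exponent {q s l : ℕ} (hq : q.Prime) (hs : 0 < s) (hl : l.Prime)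
    (hl2 : 2 * (q ^ (2 * s) - 1) ∣ l + 1) (hlbig : q ^ (2 * s) + 1 < l) (j₀ : ℕ) :
    ∃ m σ : ℕ, 2 * s ∣ m ∧
      q ^ (2 * m) = 1 + (q ^ (2 * s) - 1) * (q ^ (2 * s) + 1) * l * σ ∧
      (σ : ZMod (q ^ (2 * s) - 1)) = (q : ZMod (q ^ (2 * s) - 1)) ^ j₀ := by
  classical
  set P : ℕ := q ^ (2 * s) with hP
  have hq2 : 2 ≤ q := hq.two_le
  have hP4 : 4 ≤ P := by
    have h1 : q ^ 2 ≤ q ^ (2 * s) := Nat.pow_le_pow_right (by omega) (by omega)
    have h2 : 2 ^ 2 ≤ q ^ 2 := Nat.pow_le_pow_left hq2 2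
    omega
  set n : ℕ := P - 1 with hn
  have hn3 : 3 ≤ n := by omega
  have hPn : P = n + 1 := by omega
  have : NeZero n := ⟨by omega⟩
  have : Fact l.Prime := ⟨hl⟩
  -- `l` is odd, `l = 2 n e - 1`
  obtain ⟨e, he⟩ := hl2
  have he1 : 1 ≤ e := by
    rcases Nat.eq_zero_or_pos e with h | h
    · rw [h] at he; omega
    · exact h
  -- `q` is nonzero modulo `l`
  have hql : (q : ZMod l) ≠ 0 := by
    intro h
    rw [ZMod.natCast_eq_zero_iff] at h
    have h1 : l ≤ q := Nat.le_of_dvd (by omega) h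
    have h2 : q ≤ P := by
      calc q = q ^ 1 := (pow_one q).symm
        _ ≤ q ^ (2 * s) := Nat.pow_le_pow_right (by omega) (by omega)
    omega
  -- the order of `Q = q ^ (4 s)` modulo `l`
  set Qbar : ZMod l := (q : ZMod l) ^ (4 * s) with hQbar
  set o : ℕ := orderOf Qbar with ho
  have hhalf : l - 1 = 2 * (n * e - 1) := by
    have : 1 ≤ n * e := Nat.one_le_iff_ne_zero.mpr (Nat.mul_ne_zero (by omega) (by omega))
    have h3 : l + 1 = 2 * (n * e) := by rw [he]; ring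
    omega
  have hne1 : 1 ≤ n * e := Nat.one_le_iff_ne_zero.mpr (Nat.mul_ne_zero (by omega) (by omega))
  have hodvd : o ∣ n * e - 1 := by
    apply orderOf_dvd_of_pow_eq_one
    rw [hQbar, ← pow_mul]
    have h1 : 4 * s * (n * e - 1) = (l - 1) * (2 * s) := by rw [hhalf]; ring
    rw [h1, pow_mul, ZMod.pow_card_sub_one_eq_one hql, one_pow]
  have hcop : Nat.Coprime o n := by
    apply Nat.Coprime.coprime_dvd_left hodvd
    -- `gcd (n e - 1, n) = 1`
    have h1 : Nat.Coprime (n * e - 1) n := by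
      rw [Nat.coprime_iff_gcd_eq_one]
      have hg1 : Nat.gcd (n * e - 1) n ∣ n * e - 1 := Nat.gcd_dvd_left _ _
      have hg2 : Nat.gcd (n * e - 1) n ∣ n := Nat.gcd_dvd_right _ _
      have hg3 : Nat.gcd (n * e - 1) n ∣ n * e := Dvd.dvd.mul_right hg2 e
      have hg4 : Nat.gcd (n * e - 1) n ∣ n * e - (n * e - 1) := Nat.dvd_sub hg3 hg1
      have h5 : n * e - (n * e - 1) = 1 := by omega
      rw [h5] at hg4
      exact Nat.dvd_one.mp hg4
    exact h1
  -- the exponent `k`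
  set k : ℕ := ((-((q : ZMod n) ^ j₀)) * ((o : ZMod n))⁻¹).val with hk
  have hkcast : ((o * k : ℕ) : ZMod n) = -((q : ZMod n) ^ j₀) := by
    rw [Nat.cast_mul, hk, ZMod.natCast_zmod_val]
    have h1 := ZMod.coe_mul_inv_eq_one o hcop
    calc (o : ZMod n) * (-((q : ZMod n) ^ j₀) * ((o : ZMod n))⁻¹)
        = -((q : ZMod n) ^ j₀) * ((o : ZMod n) * ((o : ZMod n))⁻¹) := by ring
      _ = -((q : ZMod n) ^ j₀) := by rw [h1, mul_one]
  -- the geometric sum
  set Q : ℕ := q ^ (4 * s) with hQ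
  have hQP : Q = P * P := by rw [hQ, hP, ← pow_add]; congr 1; ring
  have hQ1 : Q = 1 + n * (n + 2) := by rw [hQP, hPn]; ring
  set S : ℕ := ∑ i ∈ range (o * k), Q ^ i with hS
  have hgeom : Q ^ (o * k) = 1 + n * (n + 2) * S := by
    have h1 := geom_sum_mul (Q : ℤ) (o * k)
    have h2 : ((Q : ℤ) - 1) = ((n * (n + 2) : ℕ) : ℤ) := by rw [hQ1]; push_cast; ring
    rw [h2] at h1
    have h3 : ((Q ^ (o * k) : ℕ) : ℤ) = ((1 + n * (n + 2) * S : ℕ) : ℤ) := by
      push_cast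
      rw [hS]
      push_cast at h1 ⊢
      linarith
    exact_mod_cast h3
  -- `l ∣ S`
  have hlS : l ∣ S := by
    have h1 : ((Q ^ (o * k) : ℕ) : ZMod l) = 1 := by
      rw [Nat.cast_pow, hQ, Nat.cast_pow, ← hQbar, pow_mul, ho, pow_orderOf_eq_one, one_pow]
    rw [hgeom] at h1
    have h2 : ((n * (n + 2) * S : ℕ) : ZMod l) = 0 := by
      have : ((1 + n * (n + 2) * S : ℕ) : ZMod l) = 1 + ((n * (n + 2) * S : ℕ) : ZMod l) := by
        push_cast; ring
      rw [this] at h1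
      exact add_eq_left.mp h1
    rw [ZMod.natCast_eq_zero_iff] at h2
    have h3 : ¬ l ∣ n := fun h => by
      have := Nat.le_of_dvd (by omega) h
      omega
    have h4 : ¬ l ∣ n + 2 := fun h => by
      have := Nat.le_of_dvd (by omega) h
      omega
    rcases (Nat.Prime.dvd_mul hl).mp h2 with h | h
    · rcases (Nat.Prime.dvd_mul hl).mp h with h' | h'
      · exact absurd h' h3
      · exact absurd h' h4
    · exact h
  obtain ⟨σ, hσ⟩ := hlS
  refine ⟨2 * s * (o * k), σ, Dvd.intro _ rfl, ?_, ?_⟩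
  · have h1 : 2 * (2 * s * (o * k)) = 4 * s * (o * k) := by ring
    rw [h1, pow_mul, ← hQ, hgeom, hσ]
    have h2 : P + 1 = n + 2 := by omega
    rw [h2]
    ring
  · -- `σ ≡ q ^ j₀`
    have hQn : ((Q : ℕ) : ZMod n) = 1 := by
      rw [hQ1]
      push_cast
      rw [ZMod.natCast_self]
      ring
    have hSn : ((S : ℕ) : ZMod n) = ((o * k : ℕ) : ZMod n) := by
      rw [hS, Nat.cast_sum]
      simp only [Nat.cast_pow, hQn, one_pow, sum_const, card_range, nsmul_eq_mul, mul_one]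
    have hln : ((l : ℕ) : ZMod n) = -1 := by
      have h1 : ((l + 1 : ℕ) : ZMod n) = 0 := by
        rw [he, ZMod.natCast_eq_zero_iff]
        exact Dvd.intro_left _ (by ring : 2 * e * n = 2 * n * e)
      push_cast at h1
      exact eq_neg_of_add_eq_zero_left h1
    have h5 : ((S : ℕ) : ZMod n) = -(σ : ZMod n) := by
      rw [hσ, Nat.cast_mul, hln]
      ring
    rw [hSn, hkcast] at h5
    exact neg_injective h5.symm

end Fermat.Agent.S41.CSP
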