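import Mathlib

/-!
# PROJECT R (S41), GATE 0: the congruence kernel of `SL₂(ℤ[1/q])` — basic objects

Ambient group `SL(2, ℚ)`.

* `IA q m : AddSubgroup ℚ` is `m ℤ[1/q]`;
* `Gam q m : Subgroup SL(2, ℚ)` is the principal congruence subgroup of level `m` of
  `SL₂(ℤ[1/q])`;
* `U t`, `L t`, `hD u` are the elementary and the diagonal matrices;
* `IsParHomOn Γ ψ`: the function `ψ : SL(2, ℚ) → F` is additive on the subgroup `Γ` and kills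
  its elements of trace `2`.
-/

set_option autoImplicit false

open Matrix.SpecialLinearGroup
open scoped MatrixGroups

noncomputable section

namespace Fermat.Agent.S41.CSP

/-! ### the ideals `m ℤ[1/q]` of `ℤ[1/q] ⊆ ℚ` -/

/-- `m ℤ[1/q]` as an additive subgroup of `ℚ` -/
def IA (q m : ℕ) : AddSubgroup ℚ where
  carrier := {x | ∃ (k : ℕ) (z : ℤ), (q : ℚ) ^ k * x = m * z}
  zero_mem' := ⟨0, 0, by simp⟩
  add_mem' := by
    rintro x y ⟨k, z, hz⟩ ⟨l, w, hw⟩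
    refine ⟨k + l, (q : ℤ) ^ l * z + (q : ℤ) ^ k * w, ?_⟩
    push_cast
    have e : (q : ℚ) ^ (k + l) * (x + y)
        = (q : ℚ) ^ l * ((q : ℚ) ^ k * x) + (q : ℚ) ^ k * ((q : ℚ) ^ l * y) := by ring
    rw [e, hz, hw]
    ring
  neg_mem' := by
    rintro x ⟨k, z, hz⟩
    refine ⟨k, -z, ?_⟩
    push_cast
    have e : (q : ℚ) ^ k * (-x) = -((q : ℚ) ^ k * x) := by ring
    rw [e, hz]
    ring

theorem mem_IA {q m : ℕ} {x : ℚ} :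
    x ∈ IA q m ↔ ∃ (k : ℕ) (z : ℤ), (q : ℚ) ^ k * x = m * z := Iff.rfl

theorem IA_mono {q m m' : ℕ} (h : m ∣ m') : IA q m' ≤ IA q m := by
  rintro x ⟨k, z, hz⟩
  obtain ⟨e, rfl⟩ := h
  exact ⟨k, e * z, by push_cast at hz ⊢; rw [hz]; ring⟩

theorem IA_le_one (q m : ℕ) : IA q m ≤ IA q 1 := IA_mono (one_dvd m)

theorem intCast_mem_IA_one (q : ℕ) (z : ℤ) : (z : ℚ) ∈ IA q 1 := ⟨0, z, by simp⟩

theorem natCast_mem_IA_one (q : ℕ) (z : ℕ) : (z : ℚ) ∈ IA q 1 := ⟨0, z, by simp⟩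

theorem one_mem_IA_one (q : ℕ) : (1 : ℚ) ∈ IA q 1 := ⟨0, 1, by simp⟩

theorem two_mem_IA_one (q : ℕ) : (2 : ℚ) ∈ IA q 1 := ⟨0, 2, by simp⟩

theorem mul_mem_IA {q m : ℕ} {x y : ℚ} (hx : x ∈ IA q 1) (hy : y ∈ IA q m) : x * y ∈ IA q m := by
  obtain ⟨k, z, hz⟩ := hx
  obtain ⟨l, w, hw⟩ := hy
  refine ⟨k + l, z * w, ?_⟩
  push_cast
  have e : (q : ℚ) ^ (k + l) * (x * y) = ((q : ℚ) ^ k * x) * ((q : ℚ) ^ l * y) := by ring
  rw [e, hz, hw]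
  ring

theorem mul_mem_IA' {q m : ℕ} {x y : ℚ} (hx : x ∈ IA q m) (hy : y ∈ IA q 1) : x * y ∈ IA q m := by
  rw [mul_comm]
  exact mul_mem_IA hy hx

theorem natCast_mul_mem_IA {q : ℕ} (m : ℕ) {x : ℚ} (hx : x ∈ IA q 1) : (m : ℚ) * x ∈ IA q m := by
  obtain ⟨k, z, hz⟩ := hx
  refine ⟨k, z, ?_⟩
  have e : (q : ℚ) ^ k * ((m : ℚ) * x) = (m : ℚ) * ((q : ℚ) ^ k * x) := by ring
  rw [e, hz]
  ring

theorem exists_eq_natCast_mul {q m : ℕ} {x : ℚ} (hq : q ≠ 0) (hx : x ∈ IA q m) :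
    ∃ y ∈ IA q 1, x = (m : ℚ) * y := by
  obtain ⟨k, z, hz⟩ := hx
  have hq' : (q : ℚ) ^ k ≠ 0 := pow_ne_zero _ (Nat.cast_ne_zero.mpr hq)
  refine ⟨z / (q : ℚ) ^ k, ⟨k, z, by field_simp; simp⟩, ?_⟩
  field_simp
  linarith [hz]

theorem mem_IA_iff_exists {q m : ℕ} {x : ℚ} (hq : q ≠ 0) :
    x ∈ IA q m ↔ ∃ y ∈ IA q 1, x = (m : ℚ) * y :=
  ⟨exists_eq_natCast_mul hq, by rintro ⟨y, hy, rfl⟩; exact natCast_mul_mem_IA m hy⟩

theorem zpow_mem_IA_one {q : ℕ} (hq : q ≠ 0) (j : ℤ) : (q : ℚ) ^ j ∈ IA q 1 := by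
  have hq' : (q : ℚ) ≠ 0 := Nat.cast_ne_zero.mpr hq
  rcases Int.le_total 0 j with h | h
  · obtain ⟨e, rfl⟩ := Int.eq_ofNat_of_zero_le h
    exact ⟨0, (q : ℤ) ^ e, by simp⟩
  · obtain ⟨e, he⟩ := Int.eq_ofNat_of_zero_le (neg_nonneg.mpr h)
    refine ⟨e, 1, ?_⟩
    have : j = -(e : ℤ) := by omega
    rw [this, zpow_neg, zpow_natCast]
    field_simp
    simp

theorem pow_mem_IA_one (q : ℕ) (j : ℕ) : (q : ℚ) ^ j ∈ IA q 1 :=
  ⟨0, (q : ℤ) ^ j, by simp⟩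

theorem inv_pow_mem_IA_one {q : ℕ} (hq : q ≠ 0) (j : ℕ) : ((q : ℚ) ^ j)⁻¹ ∈ IA q 1 := by
  have := zpow_mem_IA_one hq (-(j : ℤ))
  rwa [zpow_neg, zpow_natCast] at this

/-- an integer lying in `m ℤ[1/q]` is divisible by `m`, if `m` is prime to `q` -/
theorem dvd_of_intCast_mem_IA {q m : ℕ} (hqm : Nat.Coprime q m) {z : ℤ} (hz : (z : ℚ) ∈ IA q m) :
    (m : ℤ) ∣ z := by
  obtain ⟨k, w, hw⟩ := hz
  have h1 : (q : ℤ) ^ k * z = m * w := by exact_mod_cast hw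
  have h2 : IsCoprime ((q : ℤ) ^ k) (m : ℤ) := by
    apply IsCoprime.pow_left
    exact Nat.isCoprime_iff_coprime.mpr hqm
  exact h2.symm.dvd_of_dvd_mul_left ⟨w, h1⟩

/-! ### elements of `SL(2, ℚ)` -/

/-- an element of `SL(2, ℚ)` from its entries -/
def mk2 (a b c d : ℚ) (hdet : a * d - b * c = 1) : SL(2, ℚ) :=
  ⟨!![a, b; c, d], by rw [Matrix.det_fin_two_of]; exact hdet⟩

@[simp] theorem mk2_00 (a b c d : ℚ) (h : a * d - b * c = 1) : (mk2 a b c d h).1 0 0 = a := rfl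
@[simp] theorem mk2_01 (a b c d : ℚ) (h : a * d - b * c = 1) : (mk2 a b c d h).1 0 1 = b := rfl
@[simp] theorem mk2_10 (a b c d : ℚ) (h : a * d - b * c = 1) : (mk2 a b c d h).1 1 0 = c := rfl
@[simp] theorem mk2_11 (a b c d : ℚ) (h : a * d - b * c = 1) : (mk2 a b c d h).1 1 1 = d := rfl

theorem det_eq (g : SL(2, ℚ)) : g.1 0 0 * g.1 1 1 - g.1 0 1 * g.1 1 0 = 1 := by
  have := g.2
  rwa [Matrix.det_fin_two] at this

theorem ext2 {g h : SL(2, ℚ)} (h00 : g.1 0 0 = h.1 0 0) (h01 : g.1 0 1 = h.1 0 1)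
    (h10 : g.1 1 0 = h.1 1 0) (h11 : g.1 1 1 = h.1 1 1) : g = h := by
  apply Subtype.ext
  ext i j
  fin_cases i <;> fin_cases j <;> assumption

theorem mul_00 (g h : SL(2, ℚ)) : (g * h).1 0 0 = g.1 0 0 * h.1 0 0 + g.1 0 1 * h.1 1 0 := by
  rw [coe_mul, Matrix.mul_apply, Fin.sum_univ_two]
theorem mul_01 (g h : SL(2, ℚ)) : (g * h).1 0 1 = g.1 0 0 * h.1 0 1 + g.1 0 1 * h.1 1 1 := by
  rw [coe_mul, Matrix.mul_apply, Fin.sum_univ_two]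
theorem mul_10 (g h : SL(2, ℚ)) : (g * h).1 1 0 = g.1 1 0 * h.1 0 0 + g.1 1 1 * h.1 1 0 := by
  rw [coe_mul, Matrix.mul_apply, Fin.sum_univ_two]
theorem mul_11 (g h : SL(2, ℚ)) : (g * h).1 1 1 = g.1 1 0 * h.1 0 1 + g.1 1 1 * h.1 1 1 := by
  rw [coe_mul, Matrix.mul_apply, Fin.sum_univ_two]

theorem inv_00 (g : SL(2, ℚ)) : (g⁻¹).1 0 0 = g.1 1 1 := by
  rw [coe_inv, Matrix.adjugate_fin_two]; rfl
theorem inv_01 (g : SL(2, ℚ)) : (g⁻¹).1 0 1 = -g.1 0 1 := by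
  rw [coe_inv, Matrix.adjugate_fin_two]; rfl
theorem inv_10 (g : SL(2, ℚ)) : (g⁻¹).1 1 0 = -g.1 1 0 := by
  rw [coe_inv, Matrix.adjugate_fin_two]; rfl
theorem inv_11 (g : SL(2, ℚ)) : (g⁻¹).1 1 1 = g.1 0 0 := by
  rw [coe_inv, Matrix.adjugate_fin_two]; rfl

theorem one_00 : (1 : SL(2, ℚ)).1 0 0 = 1 := rfl
theorem one_01 : (1 : SL(2, ℚ)).1 0 1 = 0 := rfl
theorem one_10 : (1 : SL(2, ℚ)).1 1 0 = 0 := rfl
theorem one_11 : (1 : SL(2, ℚ)).1 1 1 = 1 := rfl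

/-- the upper elementary matrix `[1, t; 0, 1]` -/
def U (t : ℚ) : SL(2, ℚ) := mk2 1 t 0 1 (by ring)

/-- the lower elementary matrix `[1, 0; t, 1]` -/
def L (t : ℚ) : SL(2, ℚ) := mk2 1 0 t 1 (by ring)

/-- the diagonal matrix `diag(u, u⁻¹)` -/
def hD (u : ℚ) (hu : u ≠ 0) : SL(2, ℚ) := mk2 u 0 0 u⁻¹ (by rw [mul_inv_cancel₀ hu]; ring)

/-- the Weyl element `[0, -1; 1, 0]` -/
def wE : SL(2, ℚ) := mk2 0 (-1) 1 0 (by ring)

@[simp] theorem U_00 (t : ℚ) : (U t).1 0 0 = 1 := rfl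
@[simp] theorem U_01 (t : ℚ) : (U t).1 0 1 = t := rfl
@[simp] theorem U_10 (t : ℚ) : (U t).1 1 0 = 0 := rfl
@[simp] theorem U_11 (t : ℚ) : (U t).1 1 1 = 1 := rfl
@[simp] theorem L_00 (t : ℚ) : (L t).1 0 0 = 1 := rfl
@[simp] theorem L_01 (t : ℚ) : (L t).1 0 1 = 0 := rfl
@[simp] theorem L_10 (t : ℚ) : (L t).1 1 0 = t := rfl
@[simp] theorem L_11 (t : ℚ) : (L t).1 1 1 = 1 := rfl
@[simp] theorem hD_00 (u : ℚ) (hu : u ≠ 0) : (hD u hu).1 0 0 = u := rfl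
@[simp] theorem hD_01 (u : ℚ) (hu : u ≠ 0) : (hD u hu).1 0 1 = 0 := rfl
@[simp] theorem hD_10 (u : ℚ) (hu : u ≠ 0) : (hD u hu).1 1 0 = 0 := rfl
@[simp] theorem hD_11 (u : ℚ) (hu : u ≠ 0) : (hD u hu).1 1 1 = u⁻¹ := rfl

theorem U_add (s t : ℚ) : U (s + t) = U s * U t := by
  apply ext2 <;> simp [mul_00, mul_01, mul_10, mul_11]
  ring

theorem U_zero : U 0 = 1 := by
  apply ext2 <;> simp [one_00, one_01, one_10, one_11]

theorem U_neg (t : ℚ) : U (-t) = (U t)⁻¹ := by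
  apply ext2 <;> simp [inv_00, inv_01, inv_10, inv_11]

theorem L_add (s t : ℚ) : L (s + t) = L s * L t := by
  apply ext2 <;> simp [mul_00, mul_01, mul_10, mul_11]

theorem L_zero : L 0 = 1 := by
  apply ext2 <;> simp [one_00, one_01, one_10, one_11]

theorem L_neg (t : ℚ) : L (-t) = (L t)⁻¹ := by
  apply ext2 <;> simp [inv_00, inv_01, inv_10, inv_11]

/-! ### the principal congruence subgroups of `SL₂(ℤ[1/q])` -/

/-- `Γ(m) ⊆ SL₂(ℤ[1/q])`, inside `SL(2, ℚ)` -/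
def Gam (q m : ℕ) : Subgroup SL(2, ℚ) where
  carrier := {g | g.1 0 0 - 1 ∈ IA q m ∧ g.1 0 1 ∈ IA q m ∧ g.1 1 0 ∈ IA q m ∧ g.1 1 1 - 1 ∈ IA q m}
  one_mem' := by
    refine ⟨?_, ?_, ?_, ?_⟩ <;> simp [one_00, one_01, one_10, one_11, (IA q m).zero_mem]
  mul_mem' := by
    rintro g h ⟨g00, g01, g10, g11⟩ ⟨h00, h01, h10, h11⟩
    have G00 := IA_le_one q m g00
    have G01 := IA_le_one q m g01
    have G10 := IA_le_one q m g10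
    have G11 := IA_le_one q m g11
    refine ⟨?_, ?_, ?_, ?_⟩
    · rw [mul_00]
      have e : g.1 0 0 * h.1 0 0 + g.1 0 1 * h.1 1 0 - 1
          = (g.1 0 0 - 1) * (h.1 0 0 - 1) + (g.1 0 0 - 1) + (h.1 0 0 - 1) + g.1 0 1 * h.1 1 0 := by
        ring
      rw [e]
      exact (IA q m).add_mem ((IA q m).add_mem ((IA q m).add_mem (mul_mem_IA G00 h00) g00) h00)
        (mul_mem_IA G01 h10)
    · rw [mul_01]
      have e : g.1 0 0 * h.1 0 1 + g.1 0 1 * h.1 1 1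
          = (g.1 0 0 - 1) * h.1 0 1 + h.1 0 1 + g.1 0 1 * (h.1 1 1 - 1) + g.1 0 1 := by ring
      rw [e]
      exact (IA q m).add_mem ((IA q m).add_mem ((IA q m).add_mem (mul_mem_IA G00 h01) h01)
        (mul_mem_IA G01 h11)) g01
    · rw [mul_10]
      have e : g.1 1 0 * h.1 0 0 + g.1 1 1 * h.1 1 0
          = g.1 1 0 * (h.1 0 0 - 1) + g.1 1 0 + (g.1 1 1 - 1) * h.1 1 0 + h.1 1 0 := by ring
      rw [e]
      exact (IA q m).add_mem ((IA q m).add_mem ((IA q m).add_mem (mul_mem_IA G10 h00) g10)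
        (mul_mem_IA G11 h10)) h10
    · rw [mul_11]
      have e : g.1 1 0 * h.1 0 1 + g.1 1 1 * h.1 1 1 - 1
          = g.1 1 0 * h.1 0 1 + (g.1 1 1 - 1) * (h.1 1 1 - 1) + (g.1 1 1 - 1) + (h.1 1 1 - 1) := by
        ring
      rw [e]
      exact (IA q m).add_mem ((IA q m).add_mem ((IA q m).add_mem (mul_mem_IA G10 h01)
        (mul_mem_IA G11 h11)) g11) h11
  inv_mem' := by
    rintro g ⟨g00, g01, g10, g11⟩
    refine ⟨?_, ?_, ?_, ?_⟩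
    · rw [inv_00]; exact g11
    · rw [inv_01]; exact (IA q m).neg_mem g01
    · rw [inv_10]; exact (IA q m).neg_mem g10
    · rw [inv_11]; exact g00

theorem mem_Gam {q m : ℕ} {g : SL(2, ℚ)} :
    g ∈ Gam q m ↔ g.1 0 0 - 1 ∈ IA q m ∧ g.1 0 1 ∈ IA q m ∧ g.1 1 0 ∈ IA q m ∧
      g.1 1 1 - 1 ∈ IA q m := Iff.rfl

theorem Gam_mono {q m m' : ℕ} (h : m ∣ m') : Gam q m' ≤ Gam q m := by
  rintro g ⟨h1, h2, h3, h4⟩
  exact ⟨IA_mono h h1, IA_mono h h2, IA_mono h h3, IA_mono h h4⟩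

/-- the entries of an element of `Γ(m)` lie in `ℤ[1/q]` -/
theorem entry_mem_of_mem_Gam {q m : ℕ} {g : SL(2, ℚ)} (hg : g ∈ Gam q m) (i j : Fin 2) :
    g.1 i j ∈ IA q 1 := by
  obtain ⟨h1, h2, h3, h4⟩ := hg
  fin_cases i <;> fin_cases j
  · have := (IA q 1).add_mem (IA_le_one q m h1) (one_mem_IA_one q)
    simpa using this
  · exact IA_le_one q m h2
  · exact IA_le_one q m h3
  · have := (IA q 1).add_mem (IA_le_one q m h4) (one_mem_IA_one q)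
    simpa using this

theorem U_mem_Gam {q m : ℕ} {t : ℚ} (ht : t ∈ IA q m) : U t ∈ Gam q m := by
  refine ⟨?_, ?_, ?_, ?_⟩ <;> simp [ht, (IA q m).zero_mem]

theorem L_mem_Gam {q m : ℕ} {t : ℚ} (ht : t ∈ IA q m) : L t ∈ Gam q m := by
  refine ⟨?_, ?_, ?_, ?_⟩ <;> simp [ht, (IA q m).zero_mem]

/-- `Γ(m)` is normalised by `SL₂(ℤ[1/q]) = Γ(1)` -/
theorem conj_mem_Gam {q m : ℕ} {g x : SL(2, ℚ)} (hg : g ∈ Gam q 1) (hx : x ∈ Gam q m) :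
    g * x * g⁻¹ ∈ Gam q m := by
  have a := entry_mem_of_mem_Gam hg 0 0
  have b := entry_mem_of_mem_Gam hg 0 1
  have c := entry_mem_of_mem_Gam hg 1 0
  have d := entry_mem_of_mem_Gam hg 1 1
  obtain ⟨x00, x01, x10, x11⟩ := hx
  have hdet := det_eq g
  refine ⟨?_, ?_, ?_, ?_⟩
  · rw [mul_00, mul_00, mul_01, inv_00, inv_10]
    have e : (g.1 0 0 * x.1 0 0 + g.1 0 1 * x.1 1 0) * g.1 1 1 +
        (g.1 0 0 * x.1 0 1 + g.1 0 1 * x.1 1 1) * -g.1 1 0 - 1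
        = g.1 0 0 * g.1 1 1 * (x.1 0 0 - 1) + g.1 0 1 * g.1 1 1 * x.1 1 0
          - g.1 0 0 * g.1 1 0 * x.1 0 1 - g.1 0 1 * g.1 1 0 * (x.1 1 1 - 1)
          + (g.1 0 0 * g.1 1 1 - g.1 0 1 * g.1 1 0 - 1) := by ring
    rw [e, hdet, sub_self, add_zero]
    exact (IA q m).sub_mem ((IA q m).sub_mem ((IA q m).add_mem
      (mul_mem_IA ((mul_mem_IA a d)) x00) (mul_mem_IA (mul_mem_IA b d) x10))
      (mul_mem_IA (mul_mem_IA a c) x01)) (mul_mem_IA (mul_mem_IA b c) x11)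
  · rw [mul_01, mul_00, mul_01, inv_01, inv_11]
    have e : (g.1 0 0 * x.1 0 0 + g.1 0 1 * x.1 1 0) * -g.1 0 1 +
        (g.1 0 0 * x.1 0 1 + g.1 0 1 * x.1 1 1) * g.1 0 0
        = -(g.1 0 0 * g.1 0 1 * (x.1 0 0 - 1)) - g.1 0 1 * g.1 0 1 * x.1 1 0
          + g.1 0 0 * g.1 0 0 * x.1 0 1 + g.1 0 1 * g.1 0 0 * (x.1 1 1 - 1) := by ring
    rw [e]
    exact (IA q m).add_mem ((IA q m).add_mem ((IA q m).sub_mem
      ((IA q m).neg_mem (mul_mem_IA ((mul_mem_IA a b)) x00)) (mul_mem_IA (mul_mem_IA b b) x10))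
      (mul_mem_IA (mul_mem_IA a a) x01)) (mul_mem_IA (mul_mem_IA b a) x11)
  · rw [mul_10, mul_10, mul_11, inv_00, inv_10]
    have e : (g.1 1 0 * x.1 0 0 + g.1 1 1 * x.1 1 0) * g.1 1 1 +
        (g.1 1 0 * x.1 0 1 + g.1 1 1 * x.1 1 1) * -g.1 1 0
        = g.1 1 0 * g.1 1 1 * (x.1 0 0 - 1) + g.1 1 1 * g.1 1 1 * x.1 1 0
          - g.1 1 0 * g.1 1 0 * x.1 0 1 - g.1 1 1 * g.1 1 0 * (x.1 1 1 - 1) := by ring
    rw [e]
    exact (IA q m).sub_mem ((IA q m).sub_mem ((IA q m).add_mem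
      (mul_mem_IA ((mul_mem_IA c d)) x00) (mul_mem_IA (mul_mem_IA d d) x10))
      (mul_mem_IA (mul_mem_IA c c) x01)) (mul_mem_IA (mul_mem_IA d c) x11)
  · rw [mul_11, mul_10, mul_11, inv_01, inv_11]
    have e : (g.1 1 0 * x.1 0 0 + g.1 1 1 * x.1 1 0) * -g.1 0 1 +
        (g.1 1 0 * x.1 0 1 + g.1 1 1 * x.1 1 1) * g.1 0 0 - 1
        = -(g.1 1 0 * g.1 0 1 * (x.1 0 0 - 1)) - g.1 1 1 * g.1 0 1 * x.1 1 0
          + g.1 1 0 * g.1 0 0 * x.1 0 1 + g.1 1 1 * g.1 0 0 * (x.1 1 1 - 1)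
          + (g.1 0 0 * g.1 1 1 - g.1 0 1 * g.1 1 0 - 1) := by ring
    rw [e, hdet, sub_self, add_zero]
    exact (IA q m).add_mem ((IA q m).add_mem ((IA q m).sub_mem
      ((IA q m).neg_mem (mul_mem_IA ((mul_mem_IA c b)) x00)) (mul_mem_IA (mul_mem_IA d b) x10))
      (mul_mem_IA (mul_mem_IA c a) x01)) (mul_mem_IA (mul_mem_IA d a) x11)

/-! ### parabolic homomorphisms on a subgroup -/

/-- `ψ` is additive on `Γ` and kills the elements of `Γ` of trace `2` -/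
structure IsParHomOn {F : Type*} [AddCommGroup F] (Γ : Subgroup SL(2, ℚ)) (ψ : SL(2, ℚ) → F) :
    Prop where
  map_mul : ∀ x ∈ Γ, ∀ y ∈ Γ, ψ (x * y) = ψ x + ψ y
  par : ∀ x ∈ Γ, x.1 0 0 + x.1 1 1 = 2 → ψ x = 0

namespace IsParHomOn

variable {F : Type*} [AddCommGroup F] {Γ : Subgroup SL(2, ℚ)} {ψ : SL(2, ℚ) → F}

theorem map_one (h : IsParHomOn Γ ψ) : ψ 1 = 0 :=
  h.par 1 Γ.one_mem (by rw [one_00, one_11]; norm_num)

theorem map_inv (h : IsParHomOn Γ ψ) {x : SL(2, ℚ)} (hx : x ∈ Γ) : ψ x⁻¹ = -ψ x := by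
  have := h.map_mul x hx x⁻¹ (Γ.inv_mem hx)
  rw [mul_inv_cancel, h.map_one] at this
  exact eq_neg_of_add_eq_zero_right this.symm

theorem mono (h : IsParHomOn Γ ψ) {Γ' : Subgroup SL(2, ℚ)} (hle : Γ' ≤ Γ) : IsParHomOn Γ' ψ :=
  ⟨fun x hx y hy => h.map_mul x (hle hx) y (hle hy), fun x hx => h.par x (hle hx)⟩

/-- conjugation inside `Γ` does not change `ψ` -/
theorem map_conj (h : IsParHomOn Γ ψ) {g x : SL(2, ℚ)} (hg : g ∈ Γ) (hx : x ∈ Γ) :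
    ψ (g * x * g⁻¹) = ψ x := by
  rw [h.map_mul _ (Γ.mul_mem hg hx) _ (Γ.inv_mem hg), h.map_mul _ hg _ hx, h.map_inv hg]
  abel

/-- left multiplication by an element of trace `2` -/
theorem map_par_mul (h : IsParHomOn Γ ψ) {u x : SL(2, ℚ)} (hu : u ∈ Γ)
    (htr : u.1 0 0 + u.1 1 1 = 2) (hx : x ∈ Γ) : ψ (u * x) = ψ x := by
  rw [h.map_mul _ hu _ hx, h.par u hu htr, zero_add]

/-- right multiplication by an element of trace `2` -/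
theorem map_mul_par (h : IsParHomOn Γ ψ) {u x : SL(2, ℚ)} (hu : u ∈ Γ)
    (htr : u.1 0 0 + u.1 1 1 = 2) (hx : x ∈ Γ) : ψ (x * u) = ψ x := by
  rw [h.map_mul _ hx _ hu, h.par u hu htr, add_zero]

end IsParHomOn

/-- the trace is invariant under conjugation -/
theorem trace_conj (g x : SL(2, ℚ)) :
    (g * x * g⁻¹).1 0 0 + (g * x * g⁻¹).1 1 1 = x.1 0 0 + x.1 1 1 := by
  have hdet := det_eq g
  rw [mul_00, mul_00, mul_01, mul_11, mul_10, mul_11, inv_00, inv_10, inv_01, inv_11]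
  have e : (g.1 0 0 * x.1 0 0 + g.1 0 1 * x.1 1 0) * g.1 1 1 +
      (g.1 0 0 * x.1 0 1 + g.1 0 1 * x.1 1 1) * -g.1 1 0 +
      ((g.1 1 0 * x.1 0 0 + g.1 1 1 * x.1 1 0) * -g.1 0 1 +
      (g.1 1 0 * x.1 0 1 + g.1 1 1 * x.1 1 1) * g.1 0 0)
      = (g.1 0 0 * g.1 1 1 - g.1 0 1 * g.1 1 0) * (x.1 0 0 + x.1 1 1) := by ring
  rw [e, hdet, one_mul]

end Fermat.Agent.S41.CSP
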