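import Fermat.Agent.S41.CSP.HeckeSq
import Fermat.Agent.S41.Ihara.Twist

/-!
# PROJECT R (S41), slice C4 (bridge): from characters of `Γ₀(N)[1/q]` to germs on `SL(2, ℚ)`

The abstract weak Ihara lemma (`CSP.heckeGerm_sq`) is about functions `Ψ : SL(2, ℚ) → F` which are
parabolic homomorphisms on the principal congruence subgroups `Gam q m` of `SL₂(ℤ[1/q])`.  The
amalgam side (`Amalgam.ihara_kernel`) produces an additive character `Φ` of the subgroup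
`GammaQ N q = Γ₀(N)[1/q]`.  This file is the dictionary:

* `Gam_le_GammaQ` : `Gam q m ≤ GammaQ N q` for `N ∣ m`;
* `ext Φ : SL(2, ℚ) → F`, the extension of `Φ` by zero, with `ext_of_mem`, `ext_mul`, `ext_castQ`,
  `ext_incA`;
* `isParHomOn_ext` : `ext Φ` is a parabolic homomorphism on all of `GammaQ N q` (hence on
  `Gam q N`), if `F` has no `q`-torsion and `Φ ∘ incA` is parabolic;
* `IsParHomOn.comp_kap` and `isParHomOn_ext_kap` : `ext Φ ∘ kap r` is a parabolic homomorphism on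
  `Gam q (N * r)`;
* `castQ_mem_Gam` : the cast of an element of `Γ(D) ⊆ SL(2, ℤ)` lies in `Gam q D`.
-/

set_option autoImplicit false

open CongruenceSubgroup Matrix.SpecialLinearGroup ModularCurve.Period
open scoped MatrixGroups

noncomputable section

namespace Fermat.Agent.S41.CSP.Bridge

open Fermat.Agent.S41.Amalgam (IsQInt IsQIntMul GammaQ mem_GammaQ castQ castQ_apply incA incB
  incA_coe)
open Fermat.Agent.S41.CSP

/-! ### the two descriptions of `ℤ[1/q]` -/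

theorem isQInt_of_mem_IA {q : ℕ} {x : ℚ} (h : x ∈ IA q 1) : IsQInt q x := by
  obtain ⟨k, z, hz⟩ := h
  exact ⟨k, z, by rw [hz]; simp⟩

theorem mem_IA_of_isQInt {q : ℕ} {x : ℚ} (h : IsQInt q x) : x ∈ IA q 1 := by
  obtain ⟨k, z, hz⟩ := h
  exact ⟨k, z, by rw [hz]; simp⟩

theorem isQIntMul_iff_mem_IA {q m : ℕ} {x : ℚ} : IsQIntMul q m x ↔ x ∈ IA q m := Iff.rfl

/-! ### `Γ(m) ⊆ Γ₀(N)[1/q]` -/

theorem Gam_le_GammaQ {q N m : ℕ} (h : N ∣ m) : Gam q m ≤ GammaQ N q := by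
  intro g hg
  exact ⟨fun i j => isQInt_of_mem_IA (entry_mem_of_mem_Gam hg i j), IA_mono h hg.2.2.1⟩

theorem Gam_le_GammaQ_self (q N : ℕ) : Gam q N ≤ GammaQ N q := Gam_le_GammaQ (dvd_refl N)

/-- the cast of an element of `Γ(D) ⊆ SL(2, ℤ)` lies in `Gam q D` -/
theorem castQ_mem_Gam (q : ℕ) {D : ℕ} {g : SL(2, ℤ)} (hg : g ∈ Gamma D) : castQ g ∈ Gam q D := by
  rw [Gamma_mem] at hg
  obtain ⟨h00, h01, h10, h11⟩ := hg
  have e00 : (D : ℤ) ∣ g.1 0 0 - 1 := by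
    rw [← ZMod.intCast_zmod_eq_zero_iff_dvd]; push_cast; rw [h00]; ring
  have e01 : (D : ℤ) ∣ g.1 0 1 := (ZMod.intCast_zmod_eq_zero_iff_dvd _ _).mp h01
  have e10 : (D : ℤ) ∣ g.1 1 0 := (ZMod.intCast_zmod_eq_zero_iff_dvd _ _).mp h10
  have e11 : (D : ℤ) ∣ g.1 1 1 - 1 := by
    rw [← ZMod.intCast_zmod_eq_zero_iff_dvd]; push_cast; rw [h11]; ring
  refine ⟨?_, ?_, ?_, ?_⟩
  · obtain ⟨z, hz⟩ := e00
    refine ⟨0, z, ?_⟩
    rw [castQ_apply, pow_zero, one_mul]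
    have : ((g.1 0 0 - 1 : ℤ) : ℚ) = ((D : ℤ) * z : ℤ) := by rw [hz]
    push_cast at this
    exact this
  · obtain ⟨z, hz⟩ := e01
    refine ⟨0, z, ?_⟩
    rw [castQ_apply, pow_zero, one_mul, hz]
    push_cast
    ring
  · obtain ⟨z, hz⟩ := e10
    refine ⟨0, z, ?_⟩
    rw [castQ_apply, pow_zero, one_mul, hz]
    push_cast
    ring
  · obtain ⟨z, hz⟩ := e11
    refine ⟨0, z, ?_⟩
    rw [castQ_apply, pow_zero, one_mul]
    have : ((g.1 1 1 - 1 : ℤ) : ℚ) = ((D : ℤ) * z : ℤ) := by rw [hz]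
    push_cast at this
    exact this

/-! ### the extension by zero of a character of `Γ₀(N)[1/q]` -/

variable {N q : ℕ} {F : Type*} [AddCommGroup F]

open Classical in
/-- the extension by zero to `SL(2, ℚ)` of an additive character of `Γ₀(N)[1/q]` -/
def ext (Φ : Additive (GammaQ N q) →+ F) : SL(2, ℚ) → F :=
  fun x => if h : x ∈ GammaQ N q then Φ (Additive.ofMul ⟨x, h⟩) else 0

theorem ext_of_mem (Φ : Additive (GammaQ N q) →+ F) {x : SL(2, ℚ)} (h : x ∈ GammaQ N q) :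
    ext Φ x = Φ (Additive.ofMul ⟨x, h⟩) := dif_pos h

theorem ext_coe (Φ : Additive (GammaQ N q) →+ F) (x : GammaQ N q) :
    ext Φ (x : SL(2, ℚ)) = Φ (Additive.ofMul x) := ext_of_mem Φ x.2

theorem ext_mul (Φ : Additive (GammaQ N q) →+ F) {x y : SL(2, ℚ)} (hx : x ∈ GammaQ N q)
    (hy : y ∈ GammaQ N q) : ext Φ (x * y) = ext Φ x + ext Φ y := by
  rw [ext_of_mem Φ ((GammaQ N q).mul_mem hx hy), ext_of_mem Φ hx, ext_of_mem Φ hy, ← map_add]
  rfl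

theorem ext_incA (Φ : Additive (GammaQ N q) →+ F) (g : Gamma0 N) :
    ext Φ ((incA N q g : GammaQ N q) : SL(2, ℚ)) = Φ (Additive.ofMul (incA N q g)) :=
  ext_coe Φ _

theorem ext_castQ (Φ : Additive (GammaQ N q) →+ F) (g : Gamma0 N) :
    ext Φ (castQ g.1) = (Φ.comp (MonoidHom.toAdditive (incA N q))) (Additive.ofMul g) :=
  ext_incA Φ g

theorem ext_incB [NeZero q] (Φ : Additive (GammaQ N q) →+ F) (g : Gamma0 N) :
    ext Φ ((incB N q g : GammaQ N q) : SL(2, ℚ)) = Φ (Additive.ofMul (incB N q g)) :=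
  ext_coe Φ _

/-- **`ext Φ` is a parabolic homomorphism on `Γ₀(N)[1/q]`** -/
theorem isParHomOn_ext_GammaQ (hF : ∀ f : F, q • f = 0 → f = 0) (Φ : Additive (GammaQ N q) →+ F)
    (hA : IsParabolicHom (Gamma0 N) (Φ.comp (MonoidHom.toAdditive (incA N q)))) :
    IsParHomOn (GammaQ N q) (ext Φ) := by
  refine ⟨fun x hx y hy => ext_mul Φ hx hy, fun x hx htr => ?_⟩
  rw [ext_of_mem Φ hx]
  exact Fermat.Agent.S41.Ihara.Twist.map_eq_zero_of_trace_eq_two hF Φ hA ⟨x, hx⟩ htr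

/-- **`ext Φ` is a parabolic homomorphism on `Γ(m)`, `N ∣ m`** -/
theorem isParHomOn_ext (hF : ∀ f : F, q • f = 0 → f = 0) (Φ : Additive (GammaQ N q) →+ F)
    (hA : IsParabolicHom (Gamma0 N) (Φ.comp (MonoidHom.toAdditive (incA N q)))) {m : ℕ}
    (hm : N ∣ m) : IsParHomOn (Gam q m) (ext Φ) :=
  (isParHomOn_ext_GammaQ hF Φ hA).mono (Gam_le_GammaQ hm)

/-! ### precomposition with `kap r` -/

/-- `ψ ∘ kap r` is a parabolic homomorphism on `Γ(m r)` if `ψ` is one on `Γ(m)` -/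
theorem _root_.Fermat.Agent.S41.CSP.IsParHomOn.comp_kap {q m r : ℕ} (hq : q ≠ 0)
    (hr : (r : ℚ) ≠ 0) {ψ : SL(2, ℚ) → F} (hψ : IsParHomOn (Gam q m) ψ) :
    IsParHomOn (Gam q (m * r)) (fun x => ψ (kap (r : ℚ) hr x)) := by
  refine ⟨fun x hx y hy => ?_, fun x hx htr => ?_⟩
  · show ψ (kap (r : ℚ) hr (x * y)) = ψ (kap (r : ℚ) hr x) + ψ (kap (r : ℚ) hr y)
    rw [map_mul]
    exact hψ.map_mul _ (kap_mem_Gam hq hr hx) _ (kap_mem_Gam hq hr hy)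
  · exact hψ.par _ (kap_mem_Gam hq hr hx) (by rw [trace_kap]; exact htr)

/-- `ψ ∘ kap r⁻¹` is a parabolic homomorphism on `Γ(m r)` if `ψ` is one on `Γ(m)` -/
theorem _root_.Fermat.Agent.S41.CSP.IsParHomOn.comp_kap_inv {q m r : ℕ} (hq : q ≠ 0)
    (hr : (r : ℚ) ≠ 0) {ψ : SL(2, ℚ) → F} (hψ : IsParHomOn (Gam q m) ψ) :
    IsParHomOn (Gam q (m * r)) (fun x => ψ (kap (r : ℚ)⁻¹ (inv_ne_zero hr) x)) := by
  refine ⟨fun x hx y hy => ?_, fun x hx htr => ?_⟩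
  · show ψ (kap (r : ℚ)⁻¹ _ (x * y)) = ψ (kap (r : ℚ)⁻¹ _ x) + ψ (kap (r : ℚ)⁻¹ _ y)
    rw [map_mul]
    exact hψ.map_mul _ (kap_inv_mem_Gam hq hr hx) _ (kap_inv_mem_Gam hq hr hy)
  · exact hψ.par _ (kap_inv_mem_Gam hq hr hx) (by rw [trace_kap]; exact htr)

/-- **`ext Φ ∘ kap r` is a parabolic homomorphism on `Γ(N r)`** -/
theorem isParHomOn_ext_kap (hq : q ≠ 0) (hF : ∀ f : F, q • f = 0 → f = 0)
    (Φ : Additive (GammaQ N q) →+ F)
    (hA : IsParabolicHom (Gamma0 N) (Φ.comp (MonoidHom.toAdditive (incA N q)))) {r : ℕ}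
    (hr : (r : ℚ) ≠ 0) : IsParHomOn (Gam q (N * r)) (fun x => ext Φ (kap (r : ℚ) hr x)) :=
  (isParHomOn_ext hF Φ hA (dvd_refl N)).comp_kap hq hr

end Fermat.Agent.S41.CSP.Bridge
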