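import Fermat.Agent.S41.CSP.Basic
import Fermat.Agent.S41.CSP.Arith

/-!
# PROJECT R (S41), GATE 0: the centrality lemma

`n = q ^ (2 s) - 1`, `ψ` a homomorphism on `Γ(n) ⊆ SL₂(ℤ[1/q])` killing the elements of trace `2`.
Then `ψ (U 2 * x * (U 2)⁻¹) = ψ x` for all `x ∈ Γ(n)` (`central_U`), and the same for `L 2`
(`central_L`).
-/

set_option autoImplicit false

open Matrix.SpecialLinearGroup
open scoped MatrixGroups

noncomputable section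

namespace Fermat.Agent.S41.CSP

/-! ### Part II: the congruence in `ℤ[1/q]` -/

theorem natCast_pow_sub_one (q s : ℕ) (hq : 1 ≤ q) :
    ((q ^ (2 * s) - 1 : ℕ) : ℚ) = (q : ℚ) ^ (2 * s) - 1 := by
  have h : 1 ≤ q ^ (2 * s) := Nat.one_le_pow _ _ hq
  rw [Nat.cast_sub h]
  push_cast
  ring

theorem exists_unit_col {q s l : ℕ} (K : ℕ) (hq : q.Prime) (hs : 0 < s) (hl : l.Prime)
    (hl2 : 2 * (q ^ (2 * s) - 1) ∣ l + 1) (hlbig : q ^ (2 * s) + 1 < l)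
    {a : ℚ} (ha : a - 1 ∈ IA q (q ^ (2 * s) - 1)) :
    ∃ m : ℕ, 2 * s ∣ m ∧ ∃ μ ∈ IA q 1,
      a + 2 * (((q ^ (2 * s) - 1 : ℕ) : ℚ) * l / (q : ℚ) ^ K) - ((q : ℚ) ^ m) ^ 2 * a =
        ((q ^ (2 * s) - 1 : ℕ) : ℚ) * (((q ^ (2 * s) - 1 : ℕ) : ℚ) * l / (q : ℚ) ^ K) * μ := by
  obtain ⟨m, σ, hm, hpow, hσ⟩ := exists_exponent hq hs hl hl2 hlbig (K * (2 * s - 1))
  set n : ℕ := q ^ (2 * s) - 1 with hn
  have hq1 : 1 ≤ q := hq.one_lt.le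
  have hP1 : 1 ≤ q ^ (2 * s) := Nat.one_le_pow _ _ hq1
  have hPn : q ^ (2 * s) = n + 1 := by omega
  have hq0 : (q : ℚ) ≠ 0 := Nat.cast_ne_zero.mpr hq.ne_zero
  -- `σ q ^ K ≡ 1 mod n`
  have h1 : ((σ * q ^ K : ℕ) : ZMod n) = ((1 : ℕ) : ZMod n) := by
    rw [Nat.cast_mul, hσ, Nat.cast_pow, ← pow_add]
    have h2 : K * (2 * s - 1) + K = (2 * s) * K := by
      have : 1 ≤ 2 * s := by omega
      have h3 : 2 * s - 1 + 1 = 2 * s := by omega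
      calc K * (2 * s - 1) + K = K * (2 * s - 1 + 1) := by ring
        _ = (2 * s) * K := by rw [h3]; ring
    rw [h2, pow_mul]
    have h4 : ((q : ZMod n)) ^ (2 * s) = 1 := by
      have : ((q ^ (2 * s) : ℕ) : ZMod n) = 1 := by
        rw [hPn]; push_cast; rw [ZMod.natCast_self]; ring
      rw [← this]; push_cast; rfl
    rw [h4, one_pow, Nat.cast_one]
  rw [ZMod.natCast_eq_natCast_iff, Nat.modEq_iff_dvd] at h1
  obtain ⟨e', he'⟩ := h1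
  -- `he' : (1 : ℤ) - (σ q ^ K) = n e'`
  have he'Q : (σ : ℚ) * (q : ℚ) ^ K = 1 - (n : ℚ) * (e' : ℚ) := by
    have : ((σ * q ^ K : ℕ) : ℤ) = 1 - (n : ℤ) * e' := by
      have := he'
      push_cast at this ⊢
      linarith
    have h5 : (((σ * q ^ K : ℕ) : ℤ) : ℚ) = ((1 - (n : ℤ) * e' : ℤ) : ℚ) := by rw [this]
    push_cast at h5
    exact h5
  obtain ⟨α, hα, haα⟩ := exists_eq_natCast_mul hq.ne_zero ha
  have hpowQ : ((q : ℚ) ^ m) ^ 2 = 1 + (n : ℚ) * ((n : ℚ) + 2) * l * σ := by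
    have h6 : ((q ^ (2 * m) : ℕ) : ℚ) = ((1 + n * (q ^ (2 * s) + 1) * l * σ : ℕ) : ℚ) := by
      rw [hpow]
    rw [hPn] at h6
    push_cast at h6
    rw [← pow_mul, mul_comm m 2, h6]
    ring
  refine ⟨m, hm, -(((n : ℚ) + 2) * σ * (q : ℚ) ^ K * α + σ * (q : ℚ) ^ K - 2 * e'), ?_, ?_⟩
  · apply (IA q 1).neg_mem
    apply (IA q 1).sub_mem
    · apply (IA q 1).add_mem
      · apply mul_mem_IA _ hα
        apply mul_mem_IA _ (pow_mem_IA_one q K)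
        apply mul_mem_IA _ (natCast_mem_IA_one q σ)
        have : ((n : ℚ) + 2) = ((n + 2 : ℕ) : ℚ) := by push_cast; ring
        rw [this]
        exact natCast_mem_IA_one q _
      · exact mul_mem_IA (natCast_mem_IA_one q σ) (pow_mem_IA_one q K)
    · exact mul_mem_IA (two_mem_IA_one q) (intCast_mem_IA_one q e')
  · have ha' : a = 1 + (n : ℚ) * α := by linarith
    have hqK : (q : ℚ) ^ K ≠ 0 := pow_ne_zero _ hq0
    rw [hpowQ, ha']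
    field_simp
    linear_combination (-2 * (n : ℚ) * (l : ℚ)) * he'Q

/-! ### Part III: Dirichlet -/

/-- clearing the denominator of an element of `ℤ[1/q]`, with any larger exponent -/
theorem exists_int_of_mem_IA_one {q : ℕ} {x : ℚ} (hx : x ∈ IA q 1) :
    ∃ k : ℕ, ∀ K : ℕ, k ≤ K → ∃ z : ℤ, (q : ℚ) ^ K * x = z := by
  obtain ⟨k, z, hz⟩ := hx
  refine ⟨k, fun K hK => ⟨(q : ℤ) ^ (K - k) * z, ?_⟩⟩
  have h1 : K = (K - k) + k := by omega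
  have h2 : (q : ℚ) ^ K * x = (q : ℚ) ^ (K - k) * ((q : ℚ) ^ k * x) := by
    conv_lhs => rw [h1, pow_add]
    ring
  rw [h2, hz]
  push_cast
  ring

theorem coprime_self_pow_sub_one {q s : ℕ} (hq : 2 ≤ q) (hs : 0 < s) :
    Nat.Coprime q (q ^ (2 * s) - 1) := by
  have h1 : 1 ≤ q ^ (2 * s) := Nat.one_le_pow _ _ (by omega)
  have h2 : q ∣ q ^ (2 * s) := dvd_pow_self q (by omega)
  rw [Nat.coprime_iff_gcd_eq_one]
  have hg1 : Nat.gcd q (q ^ (2 * s) - 1) ∣ q := Nat.gcd_dvd_left _ _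
  have hg2 : Nat.gcd q (q ^ (2 * s) - 1) ∣ q ^ (2 * s) - 1 := Nat.gcd_dvd_right _ _
  have hg3 : Nat.gcd q (q ^ (2 * s) - 1) ∣ q ^ (2 * s) := hg1.trans h2
  have hg4 := Nat.dvd_sub hg3 hg2
  have h5 : q ^ (2 * s) - (q ^ (2 * s) - 1) = 1 := by omega
  rw [h5] at hg4
  exact Nat.dvd_one.mp hg4

/-- **Dirichlet**: after a left multiplication by `L (n s₁)` the lower left entry becomes
`n l / q ^ K` with `l` a prime, `l ≡ -1 mod 2 n`. -/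
theorem exists_prime_col {q s : ℕ} (hq : q.Prime) (hs : 0 < s) {x : SL(2, ℚ)}
    (hx : x ∈ Gam q (q ^ (2 * s) - 1)) :
    ∃ (s₁ : ℚ) (K l : ℕ), s₁ ∈ IA q 1 ∧ l.Prime ∧ 2 * (q ^ (2 * s) - 1) ∣ l + 1 ∧
      q ^ (2 * s) + 1 < l ∧
      x.1 1 0 + ((q ^ (2 * s) - 1 : ℕ) : ℚ) * s₁ * x.1 0 0 =
        ((q ^ (2 * s) - 1 : ℕ) : ℚ) * l / (q : ℚ) ^ K := by
  classical
  set n : ℕ := q ^ (2 * s) - 1 with hn
  have hq2 : 2 ≤ q := hq.two_le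
  have hP4 : 4 ≤ q ^ (2 * s) := by
    have h1 : q ^ 2 ≤ q ^ (2 * s) := Nat.pow_le_pow_right (by omega) (by omega)
    have h2 : 2 ^ 2 ≤ q ^ 2 := Nat.pow_le_pow_left hq2 2
    omega
  have hn3 : 3 ≤ n := by omega
  have hPn : q ^ (2 * s) = n + 1 := by omega
  have hqn : Nat.Coprime q n := coprime_self_pow_sub_one hq2 hs
  have hq0 : (q : ℚ) ≠ 0 := Nat.cast_ne_zero.mpr hq.ne_zero
  have hn0 : (n : ℚ) ≠ 0 := Nat.cast_ne_zero.mpr (by omega)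
  obtain ⟨x00, x01, x10, x11⟩ := hx
  -- the entries
  have ha := entry_mem_of_mem_Gam (⟨x00, x01, x10, x11⟩ : x ∈ Gam q n) 0 0
  have hb := entry_mem_of_mem_Gam (⟨x00, x01, x10, x11⟩ : x ∈ Gam q n) 0 1
  have hd := entry_mem_of_mem_Gam (⟨x00, x01, x10, x11⟩ : x ∈ Gam q n) 1 1
  obtain ⟨c₀, hc₀, hcc₀⟩ := exists_eq_natCast_mul hq.ne_zero x10
  obtain ⟨k₁, hk₁⟩ := exists_int_of_mem_IA_one ha
  obtain ⟨k₂, hk₂⟩ := exists_int_of_mem_IA_one hb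
  obtain ⟨k₃, hk₃⟩ := exists_int_of_mem_IA_one hc₀
  obtain ⟨k₄, hk₄⟩ := exists_int_of_mem_IA_one hd
  set K : ℕ := k₁ + k₂ + k₃ + k₄ with hK
  obtain ⟨A', hA'⟩ := hk₁ K (by omega)
  obtain ⟨B', hB'⟩ := hk₂ K (by omega)
  obtain ⟨C', hC'⟩ := hk₃ K (by omega)
  obtain ⟨D', hD'⟩ := hk₄ K (by omega)
  have hqK : (q : ℚ) ^ K ≠ 0 := pow_ne_zero _ hq0
  -- the determinant
  have hdetQ : (A' : ℚ) * D' - n * B' * C' = ((q : ℚ) ^ K) ^ 2 := by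
    have hdet := det_eq x
    rw [← hA', ← hB', ← hC', ← hD']
    rw [hcc₀] at hdet
    linear_combination ((q : ℚ) ^ K) ^ 2 * hdet
  have hdetZ : A' * D' - n * B' * C' = ((q : ℤ) ^ K) ^ 2 := by exact_mod_cast hdetQ
  -- `A' ≡ q ^ K mod n`
  have hAn : (n : ℤ) ∣ A' - (q : ℤ) ^ K := by
    apply dvd_of_intCast_mem_IA hqn
    have h1 : (((A' - (q : ℤ) ^ K : ℤ)) : ℚ) = (q : ℚ) ^ K * (x.1 0 0 - 1) := by
      push_cast
      rw [← hA']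
      ring
    rw [h1]
    exact mul_mem_IA (pow_mem_IA_one q K) x00
  obtain ⟨t, ht⟩ := hAn
  have hA'eq : A' = (q : ℤ) ^ K + n * t := by linarith
  -- `A'` is prime to `n`
  have hcopqn : IsCoprime ((q : ℤ) ^ K) (n : ℤ) :=
    IsCoprime.pow_left (Nat.isCoprime_iff_coprime.mpr hqn)
  have hcopAn : IsCoprime A' (n : ℤ) := by
    rw [hA'eq]
    exact hcopqn.add_mul_left_left t
  have hA'0 : A' ≠ 0 := by
    intro h
    rw [h] at hcopAn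
    have := (isCoprime_zero_left.mp hcopAn)
    have h2 : (n : ℤ).natAbs = 1 := Int.isUnit_iff_natAbs_eq.mp this
    simp at h2
    omega
  -- remove the powers of `q` from `A'`
  have hfin : FiniteMultiplicity (q : ℤ) A' := by
    rw [Int.finiteMultiplicity_iff]
    refine ⟨?_, hA'0⟩
    simp only [Int.natAbs_natCast]
    omega
  obtain ⟨a₂, ha₂, hqa₂⟩ := hfin.exists_eq_pow_mul_and_not_dvd
  set i' : ℕ := multiplicity (q : ℤ) A' with hi'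
  have hqprime : Prime (q : ℤ) := Nat.prime_iff_prime_int.mp hq
  have hcopqa₂ : IsCoprime (q : ℤ) a₂ := hqprime.coprime_iff_not_dvd.mpr hqa₂
  have ha₂0 : a₂ ≠ 0 := by
    intro h
    rw [h, mul_zero] at ha₂
    exact hA'0 ha₂
  -- `a₂` is prime to `C'`
  have hcopa₂C : IsCoprime a₂ C' := by
    obtain ⟨u, v, huv⟩ := (hcopqa₂.symm.pow_right (n := 2 * K))
    refine ⟨u + v * (q : ℤ) ^ i' * D', -(v * n * B'), ?_⟩
    have h1 : ((q : ℤ) ^ K) ^ 2 = (q : ℤ) ^ (2 * K) := by rw [← pow_mul, mul_comm]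
    rw [h1] at hdetZ
    rw [← huv, ← hdetZ, ha₂]
    ring
  -- `a₂` is prime to `2 n`
  have hcopa₂n : IsCoprime a₂ (n : ℤ) := by
    rw [ha₂] at hcopAn
    exact hcopAn.of_mul_left_right
  have h2a₂ : ¬ (2 : ℤ) ∣ a₂ := by
    intro h2
    by_cases hq2' : q = 2
    · apply hqa₂
      rw [hq2']
      exact_mod_cast h2
    · -- `q` odd, `n` even, `A'` odd
      have hqodd : ¬ 2 ∣ q := by
        intro h
        exact hq2' ((Nat.prime_dvd_prime_iff_eq Nat.prime_two hq).mp h).symm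
      have hPodd : ¬ 2 ∣ q ^ (2 * s) := fun h => hqodd (Nat.Prime.dvd_of_dvd_pow Nat.prime_two h)
      have hneven : (2 : ℤ) ∣ (n : ℤ) := by
        have : 2 ∣ n := by omega
        exact_mod_cast this
      have h3 : (2 : ℤ) ∣ A' := by
        rw [ha₂]
        exact Dvd.dvd.mul_left h2 _
      have h4 : (2 : ℤ) ∣ (q : ℤ) ^ K := by
        have : (q : ℤ) ^ K = A' - n * t := by linarith
        rw [this]
        exact dvd_sub h3 (Dvd.dvd.mul_right hneven t)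
      have h5 : (2 : ℤ) ∣ (q : ℤ) := Int.prime_two.dvd_of_dvd_pow h4
      have : 2 ∣ q := by exact_mod_cast h5
      exact hqodd this
  have hcopa₂2 : IsCoprime a₂ (2 : ℤ) :=
    (Int.prime_two.coprime_iff_not_dvd.mpr h2a₂).symm
  have hcopa₂2n : IsCoprime a₂ ((2 * n : ℕ) : ℤ) := by
    push_cast
    exact hcopa₂2.mul_right hcopa₂n
  set M₁ : ℕ := a₂.natAbs with hM₁
  have hM₁0 : M₁ ≠ 0 := Int.natAbs_ne_zero.mpr ha₂0
  have hcopM : Nat.Coprime M₁ (2 * n) := by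
    have := Int.isCoprime_iff_gcd_eq_one.mp hcopa₂2n
    rwa [Int.gcd, Int.natAbs_natCast] at this
  -- the residue class
  have : NeZero (M₁ * (2 * n)) := ⟨Nat.mul_ne_zero hM₁0 (by omega)⟩
  set e := ZMod.chineseRemainder hcopM with he
  have hM₁a₂ : ((a₂ : ℤ) : ZMod M₁) = 0 := by
    rw [ZMod.intCast_zmod_eq_zero_iff_dvd, hM₁]
    exact Int.natAbs_dvd.mpr dvd_rfl
  have hunitC : IsUnit ((C' : ℤ) : ZMod M₁) := by
    obtain ⟨u, v, huv⟩ := hcopa₂C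
    have h1 : ((u * a₂ + v * C' : ℤ) : ZMod M₁) = 1 := by rw [huv]; simp
    push_cast at h1
    rw [hM₁a₂, mul_zero, zero_add] at h1
    exact IsUnit.of_mul_eq_one_right _ h1
  have hunit : IsUnit (e.symm (((C' : ℤ) : ZMod M₁), (-1 : ZMod (2 * n)))) := by
    apply RingHom.isUnit_map e.symm.toRingHom
    rw [Prod.isUnit_iff]
    exact ⟨hunitC, isUnit_one.neg⟩
  obtain ⟨l, hlbig, hlp, hlr⟩ := Nat.forall_exists_prime_gt_and_eq_mod hunit (q ^ (2 * s) + 1)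
  have hle : e (l : ZMod (M₁ * (2 * n))) = (((C' : ℤ) : ZMod M₁), (-1 : ZMod (2 * n))) := by
    rw [hlr, RingEquiv.apply_symm_apply]
  rw [map_natCast] at hle
  have hl1 : ((l : ℕ) : ZMod M₁) = ((C' : ℤ) : ZMod M₁) := by
    have := congrArg Prod.fst hle
    simpa using this
  have hl2 : ((l : ℕ) : ZMod (2 * n)) = -1 := by
    have := congrArg Prod.snd hle
    simpa using this
  -- `2 n ∣ l + 1`
  have hdvd2 : 2 * n ∣ l + 1 := by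
    rw [← ZMod.natCast_eq_zero_iff]
    push_cast
    rw [hl2]
    ring
  -- `a₂ ∣ l - C'`
  have hdvd1 : a₂ ∣ (l : ℤ) - C' := by
    have h1 : (((l : ℤ)) : ZMod M₁) = ((C' : ℤ) : ZMod M₁) := by
      rw [← hl1]; simp
    rw [ZMod.intCast_eq_intCast_iff_dvd_sub] at h1
    have h2 : a₂ ∣ C' - (l : ℤ) := Int.natAbs_dvd.mp h1
    have h3 : (l : ℤ) - C' = -(C' - (l : ℤ)) := by ring
    rw [h3]
    exact (dvd_neg).mpr h2
  obtain ⟨s₂, hs₂⟩ := hdvd1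
  refine ⟨(s₂ : ℚ) * ((q : ℚ) ^ i')⁻¹, K, l, ?_, hlp, hdvd2, hlbig, ?_⟩
  · exact mul_mem_IA (intCast_mem_IA_one q s₂) (inv_pow_mem_IA_one hq.ne_zero i')
  · have hqi : (q : ℚ) ^ i' ≠ 0 := pow_ne_zero _ hq0
    have hA'Q : (q : ℚ) ^ K * x.1 0 0 = (q : ℚ) ^ i' * a₂ := by
      rw [hA', ha₂]
      push_cast
      ring
    have hs₂Q : (l : ℚ) - C' = a₂ * s₂ := by exact_mod_cast hs₂
    have hx00 : x.1 0 0 = (q : ℚ) ^ i' * a₂ / (q : ℚ) ^ K := by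
      field_simp
      linarith
    have hc₀Q : c₀ = C' / (q : ℚ) ^ K := by
      field_simp
      linarith
    rw [hcc₀, hx00, hc₀Q]
    field_simp
    linear_combination (-1 : ℚ) * hs₂Q

/-! ### Part IV: the centrality lemma -/

variable {F : Type*} [AddCommGroup F]

theorem U_mem_Gam_one (q : ℕ) {t : ℚ} (ht : t ∈ IA q 1) : U t ∈ Gam q 1 := U_mem_Gam ht

theorem L_mem_Gam_one (q : ℕ) {t : ℚ} (ht : t ∈ IA q 1) : L t ∈ Gam q 1 := L_mem_Gam ht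

/-- the factorisation of `diag(v, v⁻¹)` into three elements of trace `2` -/
theorem hD_eq (v : ℚ) (hv : v ≠ 0) :
    hD v hv = L (-(v - 1) / v) * (U 1 * L (v - 1) * (U 1)⁻¹) * U ((v - 1) / v) := by
  apply ext2
  · simp only [mul_00, mul_01, mul_10, mul_11, inv_00, inv_01, inv_10, inv_11, hD_00, U_00, U_01,
      U_10, U_11, L_00, L_01, L_10, L_11]
    field_simp
    ring
  · simp only [mul_00, mul_01, mul_10, mul_11, inv_00, inv_01, inv_10, inv_11, hD_01, U_00, U_01,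
      U_10, U_11, L_00, L_01, L_10, L_11]
    field_simp
    ring
  · simp only [mul_00, mul_01, mul_10, mul_11, inv_00, inv_01, inv_10, inv_11, hD_10, U_00, U_01,
      U_10, U_11, L_00, L_01, L_10, L_11]
    field_simp
    ring
  · simp only [mul_00, mul_01, mul_10, mul_11, inv_00, inv_01, inv_10, inv_11, hD_11, U_00, U_01,
      U_10, U_11, L_00, L_01, L_10, L_11]
    field_simp
    ring

/-- `q ^ m - 1 ∈ n ℤ[1/q]` for `n = q ^ (2 s) - 1`, `2 s ∣ m` -/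
theorem pow_sub_one_mem {q s m : ℕ} (hq : 1 ≤ q) (hm : 2 * s ∣ m) :
    (q : ℚ) ^ m - 1 ∈ IA q (q ^ (2 * s) - 1) := by
  obtain ⟨e, rfl⟩ := hm
  have h1 : (q ^ (2 * s) - 1) ∣ (q ^ (2 * s)) ^ e - 1 := by
    simpa using Nat.sub_dvd_pow_sub_pow (q ^ (2 * s)) 1 e
  obtain ⟨w, hw⟩ := h1
  refine ⟨0, w, ?_⟩
  have h2 : 1 ≤ (q ^ (2 * s)) ^ e := Nat.one_le_pow _ _ (Nat.one_le_pow _ _ hq)
  have h3 : (((q ^ (2 * s)) ^ e - 1 : ℕ) : ℚ) = (q : ℚ) ^ (2 * s * e) - 1 := by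
    rw [Nat.cast_sub h2]
    push_cast
    rw [← pow_mul]
  rw [pow_zero, one_mul, ← h3, hw]
  push_cast
  ring

/-- **Lemma 0**: `ψ` kills `diag(v, v⁻¹)` for the units `v = q ^ m ≡ 1 mod n` -/
theorem map_hD {q s m : ℕ} (hq : q.Prime) (hm : 2 * s ∣ m) {ψ : SL(2, ℚ) → F}
    (hψ : IsParHomOn (Gam q (q ^ (2 * s) - 1)) ψ) (hv : (q : ℚ) ^ m ≠ 0) :
    hD ((q : ℚ) ^ m) hv ∈ Gam q (q ^ (2 * s) - 1) ∧ ψ (hD ((q : ℚ) ^ m) hv) = 0 := by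
  set n : ℕ := q ^ (2 * s) - 1 with hn
  set v : ℚ := (q : ℚ) ^ m with hvdef
  have hv1 : v - 1 ∈ IA q n := pow_sub_one_mem hq.one_lt.le hm
  have hvinv : v⁻¹ ∈ IA q 1 := inv_pow_mem_IA_one hq.ne_zero m
  have h1 : (v - 1) / v ∈ IA q n := by
    rw [div_eq_mul_inv]
    exact mul_mem_IA' hv1 hvinv
  have h2 : -(v - 1) / v ∈ IA q n := by
    rw [neg_div]
    exact (IA q n).neg_mem h1
  have hA : L (-(v - 1) / v) ∈ Gam q n := L_mem_Gam h2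
  have hB : U 1 * L (v - 1) * (U 1)⁻¹ ∈ Gam q n :=
    conj_mem_Gam (U_mem_Gam_one q (one_mem_IA_one q)) (L_mem_Gam hv1)
  have hC : U ((v - 1) / v) ∈ Gam q n := U_mem_Gam h1
  have hBtr : (U 1 * L (v - 1) * (U 1)⁻¹).1 0 0 + (U 1 * L (v - 1) * (U 1)⁻¹).1 1 1 = 2 := by
    rw [trace_conj]
    simp
    norm_num
  rw [hD_eq v hv]
  refine ⟨(Gam q n).mul_mem ((Gam q n).mul_mem hA hB) hC, ?_⟩
  rw [hψ.map_mul _ ((Gam q n).mul_mem hA hB) _ hC, hψ.map_mul _ hA _ hB,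
    hψ.par _ hA (by simp; norm_num), hψ.par _ hB hBtr, hψ.par _ hC (by simp; norm_num)]
  simp

/-- two elements of `Γ(n)` with the same first column have the same image under `ψ` -/
theorem map_eq_of_col {q n : ℕ} {ψ : SL(2, ℚ) → F} (hψ : IsParHomOn (Gam q n) ψ)
    {x y : SL(2, ℚ)} (hx : x ∈ Gam q n) (hy : y ∈ Gam q n) (h0 : x.1 0 0 = y.1 0 0)
    (h1 : x.1 1 0 = y.1 1 0) : ψ x = ψ y := by
  have hz : x⁻¹ * y ∈ Gam q n := (Gam q n).mul_mem ((Gam q n).inv_mem hx) hy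
  have hdet := det_eq x
  have hdety := det_eq y
  have htr : (x⁻¹ * y).1 0 0 + (x⁻¹ * y).1 1 1 = 2 := by
    rw [mul_00, mul_11, inv_00, inv_01, inv_10, inv_11, ← h0, ← h1]
    -- `d a - b c + (-c b' + a d')`
    have e1 : x.1 1 1 * x.1 0 0 + -x.1 0 1 * x.1 1 0 = 1 := by linarith
    rw [e1]
    -- second: `-c b' + a d' = 1` using `a d' - b' c = 1`
    rw [← h0, ← h1] at hdety
    linarith
  have : y = x * (x⁻¹ * y) := by group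
  rw [this, hψ.map_mul _ hx _ hz, hψ.par _ hz htr, add_zero]

/-- the core: `ψ (U 2 x U(-2)) = ψ x` when the lower left entry of `x` is `n l / q ^ K` -/
theorem central_core {q s l K : ℕ} (hq : q.Prime) (hs : 0 < s) (hl : l.Prime)
    (hl2 : 2 * (q ^ (2 * s) - 1) ∣ l + 1) (hlbig : q ^ (2 * s) + 1 < l)
    {ψ : SL(2, ℚ) → F} (hψ : IsParHomOn (Gam q (q ^ (2 * s) - 1)) ψ) {x : SL(2, ℚ)}
    (hx : x ∈ Gam q (q ^ (2 * s) - 1))
    (hc : x.1 1 0 = ((q ^ (2 * s) - 1 : ℕ) : ℚ) * l / (q : ℚ) ^ K) :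
    ψ (U 2 * x * (U 2)⁻¹) = ψ x := by
  set n : ℕ := q ^ (2 * s) - 1 with hn
  obtain ⟨m, hm, μ, hμ, hid⟩ := exists_unit_col K hq hs hl hl2 hlbig hx.1
  have hq0 : (q : ℚ) ≠ 0 := Nat.cast_ne_zero.mpr hq.ne_zero
  have hv : (q : ℚ) ^ m ≠ 0 := pow_ne_zero _ hq0
  obtain ⟨hDmem, hDψ⟩ := map_hD hq hm hψ hv
  set v : ℚ := (q : ℚ) ^ m with hvdef
  -- `y = h(v) x h(v)`
  set y : SL(2, ℚ) := hD v hv * x * hD v hv with hy
  have hymem : y ∈ Gam q n := (Gam q n).mul_mem ((Gam q n).mul_mem hDmem hx) hDmem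
  have hyψ : ψ y = ψ x := by
    rw [hy, hψ.map_mul _ ((Gam q n).mul_mem hDmem hx) _ hDmem, hψ.map_mul _ hDmem _ hx, hDψ]
    simp
  have hy00 : y.1 0 0 = v ^ 2 * x.1 0 0 := by
    rw [hy, mul_00, mul_00, mul_01]
    simp
    ring
  have hy10 : y.1 1 0 = x.1 1 0 := by
    rw [hy, mul_10, mul_10, mul_11]
    simp
    field_simp
  -- `y' = U (n μ) y`
  have hnμ : (n : ℚ) * μ ∈ IA q n := natCast_mul_mem_IA n hμ
  have hUmem : U ((n : ℚ) * μ) ∈ Gam q n := U_mem_Gam hnμ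
  have hy'mem : U ((n : ℚ) * μ) * y ∈ Gam q n := (Gam q n).mul_mem hUmem hymem
  have hy'ψ : ψ (U ((n : ℚ) * μ) * y) = ψ x := by
    rw [hψ.map_par_mul hUmem (by simp; norm_num) hymem, hyψ]
  -- `z = U 2 x U(-2)`
  have hU2 : U 2 ∈ Gam q 1 := U_mem_Gam_one q (two_mem_IA_one q)
  have hzmem : U 2 * x * (U 2)⁻¹ ∈ Gam q n := conj_mem_Gam hU2 hx
  rw [← hy'ψ]
  apply map_eq_of_col hψ hzmem hy'mem
  · rw [mul_00, mul_00, mul_01, inv_00, inv_10, mul_00, hy00, hy10]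
    simp only [U_00, U_01, U_10, U_11]
    rw [← hn] at hid
    rw [hc]
    linear_combination hid
  · rw [mul_10, mul_10, mul_11, inv_00, inv_10, mul_10, hy10]
    simp only [U_10, U_11]
    ring

/-- **Lemma 1 (centrality)** for `U 2` -/
theorem central_U {q s : ℕ} (hq : q.Prime) (hs : 0 < s) {ψ : SL(2, ℚ) → F}
    (hψ : IsParHomOn (Gam q (q ^ (2 * s) - 1)) ψ) {x : SL(2, ℚ)}
    (hx : x ∈ Gam q (q ^ (2 * s) - 1)) : ψ (U 2 * x * (U 2)⁻¹) = ψ x := by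
  set n : ℕ := q ^ (2 * s) - 1 with hn
  obtain ⟨s₁, K, l, hs₁, hl, hl2, hlbig, hcol⟩ := exists_prime_col hq hs hx
  have hLmem : L ((n : ℚ) * s₁) ∈ Gam q n := L_mem_Gam (natCast_mul_mem_IA n hs₁)
  have hLtr : (L ((n : ℚ) * s₁)).1 0 0 + (L ((n : ℚ) * s₁)).1 1 1 = 2 := by simp; norm_num
  set x' : SL(2, ℚ) := L ((n : ℚ) * s₁) * x with hx'
  have hx'mem : x' ∈ Gam q n := (Gam q n).mul_mem hLmem hx
  have hx'ψ : ψ x' = ψ x := hψ.map_par_mul hLmem hLtr hx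
  have hx'10 : x'.1 1 0 = (n : ℚ) * l / (q : ℚ) ^ K := by
    rw [hx', mul_10, ← hcol]
    simp
    ring
  have hcore := central_core hq hs hl hl2 hlbig hψ hx'mem hx'10
  have hU2 : U 2 ∈ Gam q 1 := U_mem_Gam_one q (two_mem_IA_one q)
  have hsplit : U 2 * x' * (U 2)⁻¹ = (U 2 * L ((n : ℚ) * s₁) * (U 2)⁻¹) * (U 2 * x * (U 2)⁻¹) := by
    rw [hx']; group
  have hcLmem : U 2 * L ((n : ℚ) * s₁) * (U 2)⁻¹ ∈ Gam q n := conj_mem_Gam hU2 hLmem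
  have hcLtr : (U 2 * L ((n : ℚ) * s₁) * (U 2)⁻¹).1 0 0 +
      (U 2 * L ((n : ℚ) * s₁) * (U 2)⁻¹).1 1 1 = 2 := by
    rw [trace_conj]; exact hLtr
  have hzmem : U 2 * x * (U 2)⁻¹ ∈ Gam q n := conj_mem_Gam hU2 hx
  rw [hsplit, hψ.map_par_mul hcLmem hcLtr hzmem, hx'ψ] at hcore
  exact hcore

/-- precomposing with the conjugation by an element of `SL₂(ℤ[1/q])` -/
theorem IsParHomOn.conj_of_mem_Gam_one {q n : ℕ} {ψ : SL(2, ℚ) → F} (hψ : IsParHomOn (Gam q n) ψ)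
    {g : SL(2, ℚ)} (hg : g ∈ Gam q 1) : IsParHomOn (Gam q n) (fun x => ψ (g * x * g⁻¹)) := by
  refine ⟨fun x hx y hy => ?_, fun x hx htr => ?_⟩
  · have : g * (x * y) * g⁻¹ = (g * x * g⁻¹) * (g * y * g⁻¹) := by group
    show ψ (g * (x * y) * g⁻¹) = ψ (g * x * g⁻¹) + ψ (g * y * g⁻¹)
    rw [this, hψ.map_mul _ (conj_mem_Gam hg hx) _ (conj_mem_Gam hg hy)]
  · exact hψ.par _ (conj_mem_Gam hg hx) (by rw [trace_conj]; exact htr)

theorem wE_mem_Gam_one (q : ℕ) : wE ∈ Gam q 1 := by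
  refine ⟨?_, ?_, ?_, ?_⟩
  · show (0 : ℚ) - 1 ∈ IA q 1
    exact (IA q 1).sub_mem (IA q 1).zero_mem (one_mem_IA_one q)
  · show (-1 : ℚ) ∈ IA q 1
    exact (IA q 1).neg_mem (one_mem_IA_one q)
  · show (1 : ℚ) ∈ IA q 1
    exact one_mem_IA_one q
  · show (0 : ℚ) - 1 ∈ IA q 1
    exact (IA q 1).sub_mem (IA q 1).zero_mem (one_mem_IA_one q)

theorem wE_conj_U (t : ℚ) : wE * U t * wE⁻¹ = L (-t) := by
  apply ext2 <;>
    simp [mul_00, mul_01, mul_10, mul_11, inv_00, inv_01, inv_10, inv_11, wE]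

/-- **Lemma 1 (centrality)** for `L 2` -/
theorem central_L {q s : ℕ} (hq : q.Prime) (hs : 0 < s) {ψ : SL(2, ℚ) → F}
    (hψ : IsParHomOn (Gam q (q ^ (2 * s) - 1)) ψ) {x : SL(2, ℚ)}
    (hx : x ∈ Gam q (q ^ (2 * s) - 1)) : ψ (L 2 * x * (L 2)⁻¹) = ψ x := by
  set n : ℕ := q ^ (2 * s) - 1 with hn
  have hw := wE_mem_Gam_one q
  have hψ' := hψ.conj_of_mem_Gam_one hw
  -- apply `central_U` to `ψ ∘ conj w` and `w⁻¹ (L 2 x L(-2)) w`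
  have hL2 : L 2 ∈ Gam q 1 := L_mem_Gam_one q (two_mem_IA_one q)
  have hz : L 2 * x * (L 2)⁻¹ ∈ Gam q n := conj_mem_Gam hL2 hx
  have hz' : wE⁻¹ * (L 2 * x * (L 2)⁻¹) * wE⁻¹⁻¹ ∈ Gam q n :=
    conj_mem_Gam ((Gam q 1).inv_mem hw) hz
  have h : ψ (wE * (U 2 * (wE⁻¹ * (L 2 * x * (L 2)⁻¹) * wE⁻¹⁻¹) * (U 2)⁻¹) * wE⁻¹) =
      ψ (wE * (wE⁻¹ * (L 2 * x * (L 2)⁻¹) * wE⁻¹⁻¹) * wE⁻¹) := central_U hq hs hψ' hz'
  have e1 : wE * (U 2 * (wE⁻¹ * (L 2 * x * (L 2)⁻¹) * wE⁻¹⁻¹) * (U 2)⁻¹) * wE⁻¹ = x := by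
    have h2 : wE * U 2 * wE⁻¹ = L (-2) := wE_conj_U 2
    have h3 : L (-2) = (L 2)⁻¹ := L_neg 2
    have : wE * (U 2 * (wE⁻¹ * (L 2 * x * (L 2)⁻¹) * wE⁻¹⁻¹) * (U 2)⁻¹) * wE⁻¹
        = (wE * U 2 * wE⁻¹) * (L 2 * x * (L 2)⁻¹) * (wE * U 2 * wE⁻¹)⁻¹ := by group
    rw [this, h2, h3]
    group
  have e2 : wE * (wE⁻¹ * (L 2 * x * (L 2)⁻¹) * wE⁻¹⁻¹) * wE⁻¹ = L 2 * x * (L 2)⁻¹ := by group
  rw [e1, e2] at h
  exact h.symm

end Fermat.Agent.S41.CSP
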