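import Fermat.Agent.S41.CSP.Central

/-!
# PROJECT R (S41), GATE 0, Lemma 2: `SL₂(ℚ)` acts trivially on germs

`GInv q F g`: for every level `m` prime to `q` there is a deeper level `m'` (depending on `g`, `m`
only) such that `g Γ(m') g⁻¹ ⊆ Γ(m)` and `ψ (g x g⁻¹) = ψ x` for every `x ∈ Γ(m')` and every
parabolic homomorphism `ψ` on `Γ(m)`.

`GInv` is closed under products, inverses and conjugation by `SL(2, ℚ)`; `GInv (U 2)`, `GInv (L 2)`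
by the centrality lemma; hence `GInv (U t)`, `GInv (L t)`, `GInv (hD r)` for all `t`, `r ≠ 0`.
-/

set_option autoImplicit false

open Matrix.SpecialLinearGroup
open scoped MatrixGroups

noncomputable section

namespace Fermat.Agent.S41.CSP

/-! ### denominators and level shrinking -/

/-- `d g` has entries in `ℤ[1/q]` -/
def Den (q d : ℕ) (g : SL(2, ℚ)) : Prop := ∀ i j, (d : ℚ) * g.1 i j ∈ IA q 1

theorem Den.inv {q d : ℕ} {g : SL(2, ℚ)} (h : Den q d g) : Den q d g⁻¹ := by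
  intro i j
  fin_cases i <;> fin_cases j
  · show (d : ℚ) * (g⁻¹).1 0 0 ∈ IA q 1
    rw [inv_00]; exact h 1 1
  · show (d : ℚ) * (g⁻¹).1 0 1 ∈ IA q 1
    rw [inv_01, mul_neg]; exact (IA q 1).neg_mem (h 0 1)
  · show (d : ℚ) * (g⁻¹).1 1 0 ∈ IA q 1
    rw [inv_10, mul_neg]; exact (IA q 1).neg_mem (h 1 0)
  · show (d : ℚ) * (g⁻¹).1 1 1 ∈ IA q 1
    rw [inv_11]; exact h 0 0

/-- a rational number has a denominator prime to `q`, up to `ℤ[1/q]` -/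
theorem exists_den_rat {q : ℕ} (hq : q.Prime) (y : ℚ) :
    ∃ d : ℕ, 0 < d ∧ Nat.Coprime q d ∧ (d : ℚ) * y ∈ IA q 1 := by
  obtain ⟨e, d, hd, hden⟩ := Nat.exists_eq_pow_mul_and_not_dvd y.den_ne_zero q hq.ne_one
  have hd0 : 0 < d := by
    rcases Nat.eq_zero_or_pos d with h | h
    · rw [h, mul_zero] at hden; exact absurd hden y.den_ne_zero
    · exact h
  refine ⟨d, hd0, (Nat.Prime.coprime_iff_not_dvd hq).mpr hd, e, y.num, ?_⟩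
  have h4 : y * ((y.den : ℕ) : ℚ) = (y.num : ℚ) := Rat.mul_den_eq_num y
  have h2 : ((y.den : ℕ) : ℚ) = (q : ℚ) ^ e * (d : ℚ) := by rw [hden]; push_cast; ring
  have h3 : (q : ℚ) ^ e * ((d : ℚ) * y) = y * ((y.den : ℕ) : ℚ) := by rw [h2]; ring
  rw [h3, h4]
  simp

theorem exists_den {q : ℕ} (hq : q.Prime) (g : SL(2, ℚ)) :
    ∃ d : ℕ, 0 < d ∧ Nat.Coprime q d ∧ Den q d g := by
  obtain ⟨d₁, h1, c1, m1⟩ := exists_den_rat hq (g.1 0 0)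
  obtain ⟨d₂, h2, c2, m2⟩ := exists_den_rat hq (g.1 0 1)
  obtain ⟨d₃, h3, c3, m3⟩ := exists_den_rat hq (g.1 1 0)
  obtain ⟨d₄, h4, c4, m4⟩ := exists_den_rat hq (g.1 1 1)
  refine ⟨d₁ * d₂ * d₃ * d₄, by positivity, ?_, ?_⟩
  · exact Nat.Coprime.mul_right (Nat.Coprime.mul_right (Nat.Coprime.mul_right c1 c2) c3) c4
  · intro i j
    fin_cases i <;> fin_cases j
    · show ((d₁ * d₂ * d₃ * d₄ : ℕ) : ℚ) * g.1 0 0 ∈ IA q 1
      have : ((d₁ * d₂ * d₃ * d₄ : ℕ) : ℚ) * g.1 0 0 = ((d₂ * d₃ * d₄ : ℕ) : ℚ) * ((d₁ : ℚ) * g.1 0 0) := by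
        push_cast; ring
      rw [this]; exact mul_mem_IA (natCast_mem_IA_one q _) m1
    · show ((d₁ * d₂ * d₃ * d₄ : ℕ) : ℚ) * g.1 0 1 ∈ IA q 1
      have : ((d₁ * d₂ * d₃ * d₄ : ℕ) : ℚ) * g.1 0 1 = ((d₁ * d₃ * d₄ : ℕ) : ℚ) * ((d₂ : ℚ) * g.1 0 1) := by
        push_cast; ring
      rw [this]; exact mul_mem_IA (natCast_mem_IA_one q _) m2
    · show ((d₁ * d₂ * d₃ * d₄ : ℕ) : ℚ) * g.1 1 0 ∈ IA q 1
      have : ((d₁ * d₂ * d₃ * d₄ : ℕ) : ℚ) * g.1 1 0 = ((d₁ * d₂ * d₄ : ℕ) : ℚ) * ((d₃ : ℚ) * g.1 1 0) := by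
        push_cast; ring
      rw [this]; exact mul_mem_IA (natCast_mem_IA_one q _) m3
    · show ((d₁ * d₂ * d₃ * d₄ : ℕ) : ℚ) * g.1 1 1 ∈ IA q 1
      have : ((d₁ * d₂ * d₃ * d₄ : ℕ) : ℚ) * g.1 1 1 = ((d₁ * d₂ * d₃ : ℕ) : ℚ) * ((d₄ : ℚ) * g.1 1 1) := by
        push_cast; ring
      rw [this]; exact mul_mem_IA (natCast_mem_IA_one q _) m4

/-- the basic estimate: `u v z ∈ m ℤ[1/q]` if `d u, d v ∈ ℤ[1/q]` and `z ∈ m d² ℤ[1/q]` -/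
theorem mul_mul_mem_IA {q m d : ℕ} (hq : q ≠ 0) {u v z : ℚ} (hu : (d : ℚ) * u ∈ IA q 1)
    (hv : (d : ℚ) * v ∈ IA q 1) (hz : z ∈ IA q (m * d * d)) : u * v * z ∈ IA q m := by
  obtain ⟨y, hy, rfl⟩ := exists_eq_natCast_mul hq hz
  have e : u * v * (((m * d * d : ℕ) : ℚ) * y) = (m : ℚ) * (((d : ℚ) * u) * ((d : ℚ) * v) * y) := by
    push_cast; ring
  rw [e]
  exact natCast_mul_mem_IA m (mul_mem_IA (mul_mem_IA hu hv) hy)

/-- **level shrinking**: `g Γ(m d²) g⁻¹ ⊆ Γ(m)` if `d g` has entries in `ℤ[1/q]` -/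
theorem conj_mem_Gam_of_den {q m d : ℕ} (hq : q ≠ 0) {g x : SL(2, ℚ)} (hg : Den q d g)
    (hx : x ∈ Gam q (m * d * d)) : g * x * g⁻¹ ∈ Gam q m := by
  have a := hg 0 0
  have b := hg 0 1
  have c := hg 1 0
  have d' := hg 1 1
  obtain ⟨x00, x01, x10, x11⟩ := hx
  have hdet := det_eq g
  refine ⟨?_, ?_, ?_, ?_⟩
  · rw [mul_00, mul_00, mul_01, inv_00, inv_10]
    have e : (g.1 0 0 * x.1 0 0 + g.1 0 1 * x.1 1 0) * g.1 1 1 +
        (g.1 0 0 * x.1 0 1 + g.1 0 1 * x.1 1 1) * -g.1 1 0 - 1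
        = g.1 0 0 * g.1 1 1 * (x.1 0 0 - 1) + g.1 0 1 * g.1 1 1 * x.1 1 0
          - g.1 0 0 * g.1 1 0 * x.1 0 1 - g.1 0 1 * g.1 1 0 * (x.1 1 1 - 1)
          + (g.1 0 0 * g.1 1 1 - g.1 0 1 * g.1 1 0 - 1) := by ring
    rw [e, hdet, sub_self, add_zero]
    exact (IA q m).sub_mem ((IA q m).sub_mem ((IA q m).add_mem
      (mul_mul_mem_IA hq a d' x00) (mul_mul_mem_IA hq b d' x10))
      (mul_mul_mem_IA hq a c x01)) (mul_mul_mem_IA hq b c x11)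
  · rw [mul_01, mul_00, mul_01, inv_01, inv_11]
    have e : (g.1 0 0 * x.1 0 0 + g.1 0 1 * x.1 1 0) * -g.1 0 1 +
        (g.1 0 0 * x.1 0 1 + g.1 0 1 * x.1 1 1) * g.1 0 0
        = -(g.1 0 0 * g.1 0 1 * (x.1 0 0 - 1)) - g.1 0 1 * g.1 0 1 * x.1 1 0
          + g.1 0 0 * g.1 0 0 * x.1 0 1 + g.1 0 1 * g.1 0 0 * (x.1 1 1 - 1) := by ring
    rw [e]
    exact (IA q m).add_mem ((IA q m).add_mem ((IA q m).sub_mem
      ((IA q m).neg_mem (mul_mul_mem_IA hq a b x00)) (mul_mul_mem_IA hq b b x10))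
      (mul_mul_mem_IA hq a a x01)) (mul_mul_mem_IA hq b a x11)
  · rw [mul_10, mul_10, mul_11, inv_00, inv_10]
    have e : (g.1 1 0 * x.1 0 0 + g.1 1 1 * x.1 1 0) * g.1 1 1 +
        (g.1 1 0 * x.1 0 1 + g.1 1 1 * x.1 1 1) * -g.1 1 0
        = g.1 1 0 * g.1 1 1 * (x.1 0 0 - 1) + g.1 1 1 * g.1 1 1 * x.1 1 0
          - g.1 1 0 * g.1 1 0 * x.1 0 1 - g.1 1 1 * g.1 1 0 * (x.1 1 1 - 1) := by ring
    rw [e]
    exact (IA q m).sub_mem ((IA q m).sub_mem ((IA q m).add_mem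
      (mul_mul_mem_IA hq c d' x00) (mul_mul_mem_IA hq d' d' x10))
      (mul_mul_mem_IA hq c c x01)) (mul_mul_mem_IA hq d' c x11)
  · rw [mul_11, mul_10, mul_11, inv_01, inv_11]
    have e : (g.1 1 0 * x.1 0 0 + g.1 1 1 * x.1 1 0) * -g.1 0 1 +
        (g.1 1 0 * x.1 0 1 + g.1 1 1 * x.1 1 1) * g.1 0 0 - 1
        = -(g.1 1 0 * g.1 0 1 * (x.1 0 0 - 1)) - g.1 1 1 * g.1 0 1 * x.1 1 0
          + g.1 1 0 * g.1 0 0 * x.1 0 1 + g.1 1 1 * g.1 0 0 * (x.1 1 1 - 1)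
          + (g.1 0 0 * g.1 1 1 - g.1 0 1 * g.1 1 0 - 1) := by ring
    rw [e, hdet, sub_self, add_zero]
    exact (IA q m).add_mem ((IA q m).add_mem ((IA q m).sub_mem
      ((IA q m).neg_mem (mul_mul_mem_IA hq c b x00)) (mul_mul_mem_IA hq d' b x10))
      (mul_mul_mem_IA hq c a x01)) (mul_mul_mem_IA hq d' a x11)

/-! ### precomposition with a conjugation -/

variable {F : Type*} [AddCommGroup F]

/-- `ψ ∘ conj_b` is a parabolic homomorphism on `Γ'` if `b Γ' b⁻¹ ⊆ Γ` -/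
theorem IsParHomOn.comp_conj {Γ Γ' : Subgroup SL(2, ℚ)} {ψ : SL(2, ℚ) → F} (hψ : IsParHomOn Γ ψ)
    (b : SL(2, ℚ)) (h : ∀ x ∈ Γ', b * x * b⁻¹ ∈ Γ) :
    IsParHomOn Γ' (fun x => ψ (b * x * b⁻¹)) := by
  refine ⟨fun x hx y hy => ?_, fun x hx htr => ?_⟩
  · have : b * (x * y) * b⁻¹ = (b * x * b⁻¹) * (b * y * b⁻¹) := by group
    show ψ (b * (x * y) * b⁻¹) = ψ (b * x * b⁻¹) + ψ (b * y * b⁻¹)
    rw [this, hψ.map_mul _ (h x hx) _ (h y hy)]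
  · exact hψ.par _ (h x hx) (by rw [trace_conj]; exact htr)

/-! ### the invariance property -/

/-- the conjugation by `g` fixes every germ of parabolic homomorphism -/
def GInv (q : ℕ) (F : Type*) [AddCommGroup F] (g : SL(2, ℚ)) : Prop :=
  ∀ m : ℕ, 0 < m → Nat.Coprime q m → ∃ m' : ℕ, 0 < m' ∧ Nat.Coprime q m' ∧ m ∣ m' ∧
    (∀ x ∈ Gam q m', g * x * g⁻¹ ∈ Gam q m) ∧
    ∀ ψ : SL(2, ℚ) → F, IsParHomOn (Gam q m) ψ → ∀ x ∈ Gam q m', ψ (g * x * g⁻¹) = ψ x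

theorem GInv.one (q : ℕ) : GInv q F 1 := by
  intro m hm hqm
  refine ⟨m, hm, hqm, dvd_rfl, fun x hx => by simpa using hx, fun ψ _ x _ => by simp⟩

theorem GInv.mul {q : ℕ} {g₁ g₂ : SL(2, ℚ)} (h₁ : GInv q F g₁) (h₂ : GInv q F g₂) :
    GInv q F (g₁ * g₂) := by
  intro m hm hqm
  obtain ⟨m₁, hm₁, hqm₁, hd₁, hc₁, hi₁⟩ := h₁ m hm hqm
  obtain ⟨m₂, hm₂, hqm₂, hd₂, hc₂, hi₂⟩ := h₂ m₁ hm₁ hqm₁
  refine ⟨m₂, hm₂, hqm₂, hd₁.trans hd₂, fun x hx => ?_, fun ψ hψ x hx => ?_⟩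
  · have : g₁ * g₂ * x * (g₁ * g₂)⁻¹ = g₁ * (g₂ * x * g₂⁻¹) * g₁⁻¹ := by group
    rw [this]
    exact hc₁ _ (hc₂ x hx)
  · have : g₁ * g₂ * x * (g₁ * g₂)⁻¹ = g₁ * (g₂ * x * g₂⁻¹) * g₁⁻¹ := by group
    rw [this, hi₁ ψ hψ _ (hc₂ x hx)]
    exact hi₂ ψ (hψ.mono (Gam_mono hd₁)) x hx

theorem GInv.inv {q : ℕ} (hq : q.Prime) {g : SL(2, ℚ)} (h : GInv q F g) : GInv q F g⁻¹ := by
  intro m hm hqm
  obtain ⟨m₁, hm₁, hqm₁, hd₁, hc₁, hi₁⟩ := h m hm hqm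
  obtain ⟨d, hd0, hqd, hden⟩ := exists_den hq g⁻¹
  have hshrink : ∀ x ∈ Gam q (m₁ * d * d), g⁻¹ * x * g⁻¹⁻¹ ∈ Gam q m₁ := fun x hx =>
    conj_mem_Gam_of_den hq.ne_zero hden hx
  refine ⟨m₁ * d * d, by positivity, ?_, ?_, fun x hx => ?_, fun ψ hψ x hx => ?_⟩
  · exact Nat.Coprime.mul_right (Nat.Coprime.mul_right hqm₁ hqd) hqd
  · exact hd₁.trans (Dvd.intro _ (by ring : m₁ * (d * d) = m₁ * d * d))
  · exact Gam_mono hd₁ (hshrink x hx)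
  · have h1 := hi₁ ψ hψ _ (hshrink x hx)
    have h2 : g * (g⁻¹ * x * g⁻¹⁻¹) * g⁻¹ = x := by group
    rw [h2] at h1
    exact h1.symm

theorem GInv.conj {q : ℕ} (hq : q.Prime) {g : SL(2, ℚ)} (h : GInv q F g) (b : SL(2, ℚ)) :
    GInv q F (b * g * b⁻¹) := by
  intro m hm hqm
  obtain ⟨d, hd0, hqd, hden⟩ := exists_den hq b
  have hden' := hden.inv
  -- `b Γ(m d²) b⁻¹ ⊆ Γ(m)`
  set m₁ : ℕ := m * d * d with hm₁def
  have hm₁ : 0 < m₁ := by positivity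
  have hqm₁ : Nat.Coprime q m₁ := Nat.Coprime.mul_right (Nat.Coprime.mul_right hqm hqd) hqd
  have hb : ∀ x ∈ Gam q m₁, b * x * b⁻¹ ∈ Gam q m := fun x hx =>
    conj_mem_Gam_of_den hq.ne_zero hden hx
  obtain ⟨m₂, hm₂, hqm₂, hd₂, hc₂, hi₂⟩ := h m₁ hm₁ hqm₁
  set m₃ : ℕ := m₂ * d * d with hm₃def
  have hm₃ : 0 < m₃ := by positivity
  have hqm₃ : Nat.Coprime q m₃ := Nat.Coprime.mul_right (Nat.Coprime.mul_right hqm₂ hqd) hqd
  have hb' : ∀ y ∈ Gam q m₃, b⁻¹ * y * b⁻¹⁻¹ ∈ Gam q m₂ := fun y hy =>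
    conj_mem_Gam_of_den hq.ne_zero hden' hy
  have hdvd : m ∣ m₃ := by
    have h1 : m ∣ m₁ := Dvd.intro _ (by ring : m * (d * d) = m * d * d)
    have h2 : m₂ ∣ m₃ := Dvd.intro _ (by ring : m₂ * (d * d) = m₂ * d * d)
    exact h1.trans (hd₂.trans h2)
  refine ⟨m₃, hm₃, hqm₃, hdvd, fun y hy => ?_, fun ψ hψ y hy => ?_⟩
  · have : b * g * b⁻¹ * y * (b * g * b⁻¹)⁻¹ = b * (g * (b⁻¹ * y * b⁻¹⁻¹) * g⁻¹) * b⁻¹ := by group
    rw [this]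
    exact hb _ (hc₂ _ (hb' y hy))
  · have e1 : b * g * b⁻¹ * y * (b * g * b⁻¹)⁻¹ = b * (g * (b⁻¹ * y * b⁻¹⁻¹) * g⁻¹) * b⁻¹ := by
      group
    have hψb := hψ.comp_conj b hb
    have h1 : ψ (b * (g * (b⁻¹ * y * b⁻¹⁻¹) * g⁻¹) * b⁻¹) = ψ (b * (b⁻¹ * y * b⁻¹⁻¹) * b⁻¹) :=
      hi₂ _ hψb _ (hb' y hy)
    rw [e1, h1]
    congr 1
    group

/-! ### the elementary matrices and the diagonal matrices -/

theorem GInv.U_two {q : ℕ} (hq : q.Prime) : GInv q F (U 2) := by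
  intro m hm hqm
  set s : ℕ := Nat.totient m with hs
  have hs0 : 0 < s := Nat.totient_pos.mpr hm
  set n : ℕ := q ^ (2 * s) - 1 with hn
  have hP : 1 ≤ q ^ (2 * s) := Nat.one_le_pow _ _ hq.one_lt.le
  have hmn : m ∣ n := by
    have h1 : q ^ s ≡ 1 [MOD m] := Nat.ModEq.pow_totient hqm
    have h2 : q ^ (2 * s) ≡ 1 [MOD m] := by
      have := h1.pow 2
      rwa [one_pow, ← pow_mul, mul_comm] at this
    exact (Nat.modEq_iff_dvd' hP).mp h2.symm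
  have hn0 : 0 < n := by
    have h4 : 4 ≤ q ^ (2 * s) := by
      have h1 : q ^ 2 ≤ q ^ (2 * s) := Nat.pow_le_pow_right (by have := hq.two_le; omega) (by omega)
      have h2 : 2 ^ 2 ≤ q ^ 2 := Nat.pow_le_pow_left hq.two_le 2
      omega
    omega
  have hU2 : U 2 ∈ Gam q 1 := U_mem_Gam_one q (two_mem_IA_one q)
  refine ⟨n, hn0, coprime_self_pow_sub_one hq.two_le hs0, hmn, fun x hx => ?_, fun ψ hψ x hx => ?_⟩
  · exact Gam_mono hmn (conj_mem_Gam hU2 hx)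
  · exact central_U hq hs0 (hψ.mono (Gam_mono hmn)) hx

theorem GInv.L_two {q : ℕ} (hq : q.Prime) : GInv q F (L 2) := by
  intro m hm hqm
  set s : ℕ := Nat.totient m with hs
  have hs0 : 0 < s := Nat.totient_pos.mpr hm
  set n : ℕ := q ^ (2 * s) - 1 with hn
  have hP : 1 ≤ q ^ (2 * s) := Nat.one_le_pow _ _ hq.one_lt.le
  have hmn : m ∣ n := by
    have h1 : q ^ s ≡ 1 [MOD m] := Nat.ModEq.pow_totient hqm
    have h2 : q ^ (2 * s) ≡ 1 [MOD m] := by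
      have := h1.pow 2
      rwa [one_pow, ← pow_mul, mul_comm] at this
    exact (Nat.modEq_iff_dvd' hP).mp h2.symm
  have hn0 : 0 < n := by
    have h4 : 4 ≤ q ^ (2 * s) := by
      have h1 : q ^ 2 ≤ q ^ (2 * s) := Nat.pow_le_pow_right (by have := hq.two_le; omega) (by omega)
      have h2 : 2 ^ 2 ≤ q ^ 2 := Nat.pow_le_pow_left hq.two_le 2
      omega
    omega
  have hL2 : L 2 ∈ Gam q 1 := L_mem_Gam_one q (two_mem_IA_one q)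
  refine ⟨n, hn0, coprime_self_pow_sub_one hq.two_le hs0, hmn, fun x hx => ?_, fun ψ hψ x hx => ?_⟩
  · exact Gam_mono hmn (conj_mem_Gam hL2 hx)
  · exact central_L hq hs0 (hψ.mono (Gam_mono hmn)) hx

theorem hD_conj_U (u : ℚ) (hu : u ≠ 0) (t : ℚ) : hD u hu * U t * (hD u hu)⁻¹ = U (u ^ 2 * t) := by
  apply ext2 <;>
  simp only [mul_00, mul_01, mul_10, mul_11, inv_00, inv_01, inv_10, inv_11, hD_00, hD_01, hD_10,
    hD_11, U_00, U_01, U_10, U_11] <;>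
  (try field_simp) <;> (try ring)

theorem GInv.U_two_mul_sq {q : ℕ} (hq : q.Prime) (u : ℚ) : GInv q F (U (2 * u ^ 2)) := by
  by_cases hu : u = 0
  · rw [hu]
    have : U (2 * (0 : ℚ) ^ 2) = 1 := by rw [← U_zero]; congr 1; ring
    rw [this]
    exact GInv.one q
  · have h := (GInv.U_two (F := F) hq).conj hq (hD u hu)
    rw [hD_conj_U] at h
    have e : u ^ 2 * 2 = 2 * u ^ 2 := by ring
    rwa [e] at h

/-- `SL₂(ℚ)`-invariance for all upper elementary matrices -/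
theorem GInv.U {q : ℕ} (hq : q.Prime) (t : ℚ) : GInv q F (U t) := by
  have h1 := GInv.U_two_mul_sq (F := F) hq ((t / 2 + 1) / 2)
  have h2 := (GInv.U_two_mul_sq (F := F) hq ((t / 2 - 1) / 2)).inv hq
  have h := h1.mul h2
  rw [← U_neg, ← U_add] at h
  have e : 2 * ((t / 2 + 1) / 2) ^ 2 + -(2 * ((t / 2 - 1) / 2) ^ 2) = t := by ring
  rwa [e] at h

/-- `SL₂(ℚ)`-invariance for all lower elementary matrices -/
theorem GInv.L {q : ℕ} (hq : q.Prime) (t : ℚ) : GInv q F (L t) := by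
  have h := (GInv.U (F := F) hq (-t)).conj hq wE
  rwa [wE_conj_U, neg_neg] at h

/-- `SL₂(ℚ)`-invariance for the diagonal matrices -/
theorem GInv.hD {q : ℕ} (hq : q.Prime) (r : ℚ) (hr : r ≠ 0) : GInv q F (hD r hr) := by
  rw [hD_eq r hr]
  exact ((GInv.L hq _).mul (((GInv.L hq _).conj hq (CSP.U 1)))).mul (GInv.U hq _)

end Fermat.Agent.S41.CSP
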